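import Mathlib

/-!
# Finite subgroups of `GL₂(Ω)` are conjugate into `GL₂` of the algebraic numbers (P-S48, L2)

`Ω` is an algebraically closed field of characteristic zero and `G` a finite group.  Every
homomorphism `ρ : G →* GL (Fin 2) Ω` is conjugate to one whose matrix entries are algebraic
over `ℚ`.  The proof is the explicit `2 × 2` computation: a non-scalar `ρ g₀` of finite order has
two distinct eigenvalues, both roots of unity; in an eigenbasis the diagonal entries of every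
`ρ h` are determined by `tr (ρ h)` and `tr (ρ (g₀ h))`, the products `b c'` of off-diagonal
entries are diagonal entries of products, and one off-diagonal entry may be rescaled to `1`.
-/

set_option autoImplicit false

namespace Fermat.Agent.S48x.Lift

open Matrix

variable {Ω : Type*} [Field Ω]

/-- Algebraic elements, as membership in the intermediate field `algebraicClosure ℚ Ω`. -/
abbrev Alg [CharZero Ω] (x : Ω) : Prop := x ∈ algebraicClosure ℚ Ω

theorem alg_of_pow_eq_one [CharZero Ω] {x : Ω} {n : ℕ} (hn : 0 < n) (hx : x ^ n = 1) : Alg x := by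
  rw [Alg, mem_algebraicClosure_iff]
  have h1 : IsIntegral ℚ (x ^ n) := by rw [hx]; exact isIntegral_one
  exact (IsIntegral.of_pow hn h1).isAlgebraic

/-- Powers of an upper unipotent matrix. -/
theorem upper_unipotent_pow (x : Ω) (n : ℕ) :
    (!![1, x; 0, 1] : Matrix (Fin 2) (Fin 2) Ω) ^ n = !![1, n * x; 0, 1] := by
  induction n with
  | zero => simp [Matrix.one_fin_two]
  | succ k ih =>
    rw [pow_succ, ih, Matrix.mul_fin_two]
    congr 1
    simp only [Nat.cast_succ]
    ext i j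
    fin_cases i <;> fin_cases j <;> simp <;> ring

theorem eq_zero_of_upper_unipotent_pow [CharZero Ω] {x : Ω} {n : ℕ} (hn : 0 < n)
    (h : (!![1, x; 0, 1] : Matrix (Fin 2) (Fin 2) Ω) ^ n = 1) : x = 0 := by
  rw [upper_unipotent_pow] at h
  have h01 := congrFun (congrFun h 0) 1
  simp at h01
  rcases h01 with h01 | h01
  · omega
  · exact h01

/-- An eigenvalue of a matrix of finite order is a root of unity. -/
theorem pow_eq_one_of_det_sub_eq_zero {M : Matrix (Fin 2) (Fin 2) Ω} {n : ℕ} (hM : M ^ n = 1)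
    {x : Ω} (hx : (M - x • (1 : Matrix (Fin 2) (Fin 2) Ω)).det = 0) : x ^ n = 1 := by
  obtain ⟨v, hv, hMv⟩ := Matrix.exists_mulVec_eq_zero_iff.mpr hx
  have h1 : M.mulVec v = x • v := by
    rw [Matrix.sub_mulVec, Matrix.smul_mulVec, Matrix.one_mulVec, sub_eq_zero] at hMv
    exact hMv
  have h2 : ∀ k : ℕ, (M ^ k).mulVec v = x ^ k • v := by
    intro k
    induction k with
    | zero => simp
    | succ k ih =>
      rw [pow_succ, ← Matrix.mulVec_mulVec, h1, Matrix.mulVec_smul, ih, smul_smul, pow_succ,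
        mul_comm]
  have h3 := h2 n
  rw [hM, Matrix.one_mulVec] at h3
  by_contra hne
  apply hv
  have h4 : (1 - x ^ n) • v = 0 := by rw [sub_smul, one_smul, ← h3, sub_self]
  rcases smul_eq_zero.mp h4 with h | h
  · exact absurd (sub_eq_zero.mp h).symm hne
  · exact h

theorem det_sub_smul_one (M : Matrix (Fin 2) (Fin 2) Ω) (x : Ω) :
    (M - x • (1 : Matrix (Fin 2) (Fin 2) Ω)).det = x ^ 2 - M.trace * x + M.det := by
  rw [Matrix.det_fin_two, Matrix.det_fin_two, Matrix.trace_fin_two]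
  simp only [Matrix.sub_apply, Matrix.smul_apply, Matrix.one_apply_eq, smul_eq_mul, mul_one,
    Matrix.one_apply_ne (show (0 : Fin 2) ≠ 1 by decide),
    Matrix.one_apply_ne (show (1 : Fin 2) ≠ 0 by decide), mul_zero, sub_zero]
  ring

/-- The two eigenvalues of a `2 × 2` matrix over an algebraically closed field. -/
theorem exists_eigenvalues [IsAlgClosed Ω] (M : Matrix (Fin 2) (Fin 2) Ω) :
    ∃ l m : Ω, l + m = M.trace ∧ l * m = M.det ∧
      (M - l • (1 : Matrix (Fin 2) (Fin 2) Ω)).det = 0 ∧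
      (M - m • (1 : Matrix (Fin 2) (Fin 2) Ω)).det = 0 := by
  obtain ⟨l, hl⟩ := IsAlgClosed.exists_root
    (Polynomial.X ^ 2 - Polynomial.C M.trace * Polynomial.X + Polynomial.C M.det : Polynomial Ω)
    (by
      have hdeg : (Polynomial.X ^ 2 - Polynomial.C M.trace * Polynomial.X
          + Polynomial.C M.det : Polynomial Ω).degree = 2 := by
        compute_degree!
      rw [hdeg]; norm_num)
  have hl' : l ^ 2 - M.trace * l + M.det = 0 := by
    simpa using hl
  refine ⟨l, M.trace - l, by ring, by linear_combination (-1 : Ω) * hl', ?_, ?_⟩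
  · rw [det_sub_smul_one]; exact hl'
  · rw [det_sub_smul_one]; linear_combination hl'

/-- Trace and determinant of a matrix of finite order are algebraic. -/
theorem alg_trace_det [IsAlgClosed Ω] [CharZero Ω] {M : Matrix (Fin 2) (Fin 2) Ω} {n : ℕ}
    (hn : 0 < n) (hM : M ^ n = 1) : Alg M.trace ∧ Alg M.det := by
  obtain ⟨l, m, h1, h2, h3, h4⟩ := exists_eigenvalues M
  have hl := alg_of_pow_eq_one hn (pow_eq_one_of_det_sub_eq_zero hM h3)
  have hm := alg_of_pow_eq_one hn (pow_eq_one_of_det_sub_eq_zero hM h4)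
  exact ⟨h1 ▸ add_mem hl hm, h2 ▸ mul_mem hl hm⟩

theorem smul_one_add_pow_of_sq_eq_zero (l : Ω) {N : Matrix (Fin 2) (Fin 2) Ω} (hN : N * N = 0)
    (k : ℕ) : (l • (1 : Matrix (Fin 2) (Fin 2) Ω) + N) ^ (k + 1)
      = l ^ (k + 1) • (1 : Matrix (Fin 2) (Fin 2) Ω) + ((k + 1 : ℕ) * l ^ k) • N := by
  induction k with
  | zero => simp
  | succ k ih =>
    rw [pow_succ, ih]
    simp only [add_mul, mul_add, Matrix.smul_mul, Matrix.mul_smul, Matrix.one_mul, Matrix.mul_one,
      hN, smul_zero, add_zero, smul_smul]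
    rw [add_assoc, ← add_smul]
    congr 1
    · congr 1
      ring
    · congr 1
      push_cast
      ring

/-- A double eigenvalue forces a matrix of finite order (in characteristic zero) to be scalar. -/
theorem eq_smul_one_of_double_eigenvalue [CharZero Ω] {M : Matrix (Fin 2) (Fin 2) Ω} {n : ℕ}
    (hn : 0 < n) (hM : M ^ n = 1) {l : Ω} (ht : l + l = M.trace) (hd : l * l = M.det)
    (hl : l ^ n = 1) : M = l • (1 : Matrix (Fin 2) (Fin 2) Ω) := by
  set N : Matrix (Fin 2) (Fin 2) Ω := M - l • (1 : Matrix (Fin 2) (Fin 2) Ω) with hNdef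
  have hMN : M = l • (1 : Matrix (Fin 2) (Fin 2) Ω) + N := by rw [hNdef]; abel
  rw [Matrix.trace_fin_two] at ht
  rw [Matrix.det_fin_two] at hd
  have hN : N * N = 0 := by
    ext i j
    fin_cases i <;> fin_cases j <;>
      simp [hNdef, Matrix.mul_apply, Fin.sum_univ_two, Matrix.one_apply]
    · linear_combination (-(M 0 0)) * ht + hd
    · linear_combination (-(M 0 1)) * ht
    · linear_combination (-(M 1 0)) * ht
    · linear_combination (-(M 1 1)) * ht + hd
  obtain ⟨k, rfl⟩ : ∃ k, n = k + 1 := ⟨n - 1, by omega⟩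
  have h1 := smul_one_add_pow_of_sq_eq_zero l hN k
  rw [← hMN, hM, hl] at h1
  have h2 : (((k + 1 : ℕ) : Ω) * l ^ k) • N = 0 := by
    have := h1
    rw [one_smul] at this
    exact (add_eq_left.mp this.symm)
  have hl0 : l ≠ 0 := by
    rintro rfl
    simp at hl
  have h3 : (((k + 1 : ℕ) : Ω) * l ^ k) ≠ 0 :=
    mul_ne_zero (Nat.cast_ne_zero.mpr (Nat.succ_ne_zero k)) (pow_ne_zero _ hl0)
  rcases smul_eq_zero.mp h2 with h | h
  · exact absurd h h3
  · rw [hMN, h, add_zero]

/-- A non-scalar matrix of finite order is diagonalisable with two distinct eigenvalues, both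
roots of unity. -/
theorem exists_diagonalisation [IsAlgClosed Ω] [CharZero Ω] {M : Matrix (Fin 2) (Fin 2) Ω} {n : ℕ}
    (hn : 0 < n) (hM : M ^ n = 1) (hns : ∀ c : Ω, M ≠ c • (1 : Matrix (Fin 2) (Fin 2) Ω)) :
    ∃ (l m : Ω) (B : Matrix (Fin 2) (Fin 2) Ω), l ≠ m ∧ l ^ n = 1 ∧ m ^ n = 1 ∧ B.det ≠ 0 ∧
      M * B = B * !![l, 0; 0, m] := by
  obtain ⟨l, m, h1, h2, h3, h4⟩ := exists_eigenvalues M
  have hl := pow_eq_one_of_det_sub_eq_zero hM h3
  have hm := pow_eq_one_of_det_sub_eq_zero hM h4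
  have hlm : l ≠ m := by
    rintro rfl
    exact hns l (eq_smul_one_of_double_eigenvalue hn hM h1 h2 hl)
  obtain ⟨v, hv, hMv⟩ := Matrix.exists_mulVec_eq_zero_iff.mpr h3
  obtain ⟨w, hw, hMw⟩ := Matrix.exists_mulVec_eq_zero_iff.mpr h4
  have hv' : M.mulVec v = l • v := by
    rw [Matrix.sub_mulVec, Matrix.smul_mulVec, Matrix.one_mulVec, sub_eq_zero] at hMv
    exact hMv
  have hw' : M.mulVec w = m • w := by
    rw [Matrix.sub_mulVec, Matrix.smul_mulVec, Matrix.one_mulVec, sub_eq_zero] at hMw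
    exact hMw
  have hvi : ∀ i, M i 0 * v 0 + M i 1 * v 1 = l * v i := fun i => by
    have := congrFun hv' i
    simpa [Matrix.mulVec, dotProduct, Fin.sum_univ_two] using this
  have hwi : ∀ i, M i 0 * w 0 + M i 1 * w 1 = m * w i := fun i => by
    have := congrFun hw' i
    simpa [Matrix.mulVec, dotProduct, Fin.sum_univ_two] using this
  refine ⟨l, m, !![v 0, w 0; v 1, w 1], hlm, hl, hm, ?_, ?_⟩
  · intro hdet
    obtain ⟨x, hx, hBx⟩ := Matrix.exists_mulVec_eq_zero_iff.mpr hdet
    have e1 : ∀ i, v i * x 0 + w i * x 1 = 0 := fun i => by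
      have := congrFun hBx i
      fin_cases i <;> simpa [Matrix.mulVec, dotProduct, Fin.sum_univ_two] using this
    have e2 : ∀ i, l * v i * x 0 + m * w i * x 1 = 0 := fun i => by
      have a0 := e1 0
      have a1 := e1 1
      linear_combination (M i 0) * a0 + (M i 1) * a1 - (x 0) * hvi i - (x 1) * hwi i
    have hx1 : x 1 = 0 := by
      by_contra hne
      apply hw
      funext i
      have : (m - l) * (w i * x 1) = 0 := by linear_combination e2 i - l * e1 i
      rcases mul_eq_zero.mp this with h | h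
      · exact absurd (sub_eq_zero.mp h).symm hlm
      · rcases mul_eq_zero.mp h with h | h
        · exact h
        · exact absurd h hne
    have hx0 : x 0 = 0 := by
      by_contra hne
      apply hv
      funext i
      have : (l - m) * (v i * x 0) = 0 := by linear_combination e2 i - m * e1 i
      rcases mul_eq_zero.mp this with h | h
      · exact absurd (sub_eq_zero.mp h) hlm
      · rcases mul_eq_zero.mp h with h | h
        · exact h
        · exact absurd h hne
    apply hx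
    funext i
    fin_cases i
    · exact hx0
    · exact hx1
  · have a0 := hvi 0
    have a1 := hvi 1
    have b0 := hwi 0
    have b1 := hwi 1
    ext i j
    fin_cases i <;> fin_cases j <;> simp [Matrix.mul_apply, Fin.sum_univ_two]
    · linear_combination a0
    · linear_combination b0
    · linear_combination a1
    · linear_combination b1

section hom

variable {G : Type*} [Group G]

/-- Conjugation of a matrix-valued homomorphism by an inverse pair `(B, C)`. -/
def conjHom (B C : Matrix (Fin 2) (Fin 2) Ω) (hCB : C * B = 1) (hBC : B * C = 1)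
    (m : G →* Matrix (Fin 2) (Fin 2) Ω) : G →* Matrix (Fin 2) (Fin 2) Ω where
  toFun g := C * m g * B
  map_one' := by rw [map_one, mul_one, hCB]
  map_mul' g h := by
    rw [map_mul]
    calc C * (m g * m h) * B = C * m g * 1 * m h * B := by rw [mul_one]; simp only [mul_assoc]
      _ = C * m g * (B * C) * m h * B := by rw [hBC]
      _ = C * m g * B * (C * m h * B) := by simp only [mul_assoc]

@[simp] theorem conjHom_apply (B C : Matrix (Fin 2) (Fin 2) Ω) (hCB : C * B = 1) (hBC : B * C = 1)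
    (m : G →* Matrix (Fin 2) (Fin 2) Ω) (g : G) : conjHom B C hCB hBC m g = C * m g * B := rfl

variable [Finite G]

theorem hom_pow_card (m : G →* Matrix (Fin 2) (Fin 2) Ω) (g : G) : m g ^ Nat.card G = 1 := by
  rw [← map_pow, pow_card_eq_one', map_one]

variable [IsAlgClosed Ω] [CharZero Ω]

theorem alg_trace_hom (m : G →* Matrix (Fin 2) (Fin 2) Ω) (g : G) : Alg (m g).trace :=
  (alg_trace_det Nat.card_pos (hom_pow_card m g)).1

/-- In an eigenbasis of `m g₀` (distinct eigenvalues) the diagonal entries are algebraic. -/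
theorem alg_diag_entries (m : G →* Matrix (Fin 2) (Fin 2) Ω) {g₀ : G} {l k : Ω}
    (hD : m g₀ = !![l, 0; 0, k]) (hlk : l ≠ k) (hl : Alg l) (hk : Alg k) (h : G) :
    Alg (m h 0 0) ∧ Alg (m h 1 1) := by
  have h1 : Alg (m h 0 0 + m h 1 1) := by
    have := alg_trace_hom m h
    rwa [Matrix.trace_fin_two] at this
  have h2 : Alg (l * m h 0 0 + k * m h 1 1) := by
    have := alg_trace_hom m (g₀ * h)
    rw [map_mul, hD, Matrix.trace_fin_two] at this
    simpa [Matrix.mul_apply, Fin.sum_univ_two] using this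
  have hne : l - k ≠ 0 := sub_ne_zero.mpr hlk
  constructor
  · have : m h 0 0 = ((l * m h 0 0 + k * m h 1 1) - k * (m h 0 0 + m h 1 1)) / (l - k) := by
      field_simp
      ring
    rw [this]
    exact div_mem (sub_mem h2 (mul_mem hk h1)) (sub_mem hl hk)
  · have : m h 1 1 = (l * (m h 0 0 + m h 1 1) - (l * m h 0 0 + k * m h 1 1)) / (l - k) := by
      field_simp
      ring
    rw [this]
    exact div_mem (sub_mem (mul_mem hl h1) h2) (sub_mem hl hk)

/-- Products of an upper-right and a lower-left entry are algebraic. -/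
theorem alg_off_diag_mul (m : G →* Matrix (Fin 2) (Fin 2) Ω) {g₀ : G} {l k : Ω}
    (hD : m g₀ = !![l, 0; 0, k]) (hlk : l ≠ k) (hl : Alg l) (hk : Alg k) (h h' : G) :
    Alg (m h 0 1 * m h' 1 0) := by
  have h1 := (alg_diag_entries m hD hlk hl hk (h * h')).1
  rw [map_mul, Matrix.mul_apply, Fin.sum_univ_two] at h1
  have h2 := (alg_diag_entries m hD hlk hl hk h).1
  have h3 := (alg_diag_entries m hD hlk hl hk h').1
  have : m h 0 1 * m h' 1 0 = (m h 0 0 * m h' 0 0 + m h 0 1 * m h' 1 0) - m h 0 0 * m h' 0 0 := by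
    ring
  rw [this]
  exact sub_mem h1 (mul_mem h2 h3)

omit [IsAlgClosed Ω] in
/-- A finite group of upper triangular matrices containing `diag (l, k)` with `l ≠ k` is
diagonal. -/
theorem upper_entry_eq_zero (m : G →* Matrix (Fin 2) (Fin 2) Ω) {g₀ : G} {l k : Ω}
    (hD : m g₀ = !![l, 0; 0, k]) (hlk : l ≠ k) (hc : ∀ g, m g 1 0 = 0) (h : G) :
    m h 0 1 = 0 := by
  have hn : 0 < Nat.card G := Nat.card_pos
  -- entries of the inverse of `m g₀`
  have hDD : m g₀ * m g₀⁻¹ = 1 := by rw [← map_mul, mul_inv_cancel, map_one]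
  have hHH : m h * m h⁻¹ = 1 := by rw [← map_mul, mul_inv_cancel, map_one]
  have d00 := congrFun (congrFun hDD 0) 0
  have d01 := congrFun (congrFun hDD 0) 1
  have d11 := congrFun (congrFun hDD 1) 1
  rw [hD] at d00 d01 d11
  simp [Matrix.mul_apply, Fin.sum_univ_two] at d00 d01 d11
  have h00 := congrFun (congrFun hHH 0) 0
  have h01 := congrFun (congrFun hHH 0) 1
  have h11 := congrFun (congrFun hHH 1) 1
  simp [Matrix.mul_apply, Fin.sum_univ_two, hc] at h00 h01 h11
  have hl0 : l ≠ 0 := by rintro rfl; simp at d00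
  have hk0 : k ≠ 0 := by rintro rfl; simp at d11
  have d01' : m g₀⁻¹ 0 1 = 0 := d01.resolve_left hl0
  -- the commutator is unipotent
  set x : Ω := (l * m h 0 0 * m h⁻¹ 0 1 + k * m h 0 1 * m h⁻¹ 1 1) * m g₀⁻¹ 1 1 with hx
  have hcomm : m (h * g₀ * h⁻¹ * g₀⁻¹) = !![1, x; 0, 1] := by
    rw [map_mul, map_mul, map_mul, hD]
    ext i j
    fin_cases i <;> fin_cases j <;>
      simp [Matrix.mul_apply, Fin.sum_univ_two, hc, d01']
    · linear_combination (l * m g₀⁻¹ 0 0) * h00 + d00
    · rw [hx]; ring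
    · linear_combination (k * m g₀⁻¹ 1 1) * h11 + d11
  have hpow := hom_pow_card m (h * g₀ * h⁻¹ * g₀⁻¹)
  rw [hcomm] at hpow
  have hx0 : x = 0 := eq_zero_of_upper_unipotent_pow hn hpow
  have hd' : m g₀⁻¹ 1 1 ≠ 0 := by
    intro h0
    rw [h0, mul_zero] at d11
    exact zero_ne_one d11
  have hx1 : l * m h 0 0 * m h⁻¹ 0 1 + k * m h 0 1 * m h⁻¹ 1 1 = 0 := by
    rcases mul_eq_zero.mp (hx ▸ hx0) with h | h
    · exact h
    · exact absurd h hd'
  have hx2 : (k - l) * (m h 0 1 * m h⁻¹ 1 1) = 0 := by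
    linear_combination hx1 - l * h01
  have hd'' : m h⁻¹ 1 1 ≠ 0 := by
    intro h0
    rw [h0, mul_zero] at h11
    exact zero_ne_one h11
  rcases mul_eq_zero.mp hx2 with h | h
  · exact absurd (sub_eq_zero.mp h).symm hlk
  · rcases mul_eq_zero.mp h with h | h
    · exact h
    · exact absurd h hd''

/-- The swap matrix. -/
def swapM : Matrix (Fin 2) (Fin 2) Ω := !![0, 1; 1, 0]

omit [CharZero Ω] [IsAlgClosed Ω] in
theorem swapM_mul_self : (swapM : Matrix (Fin 2) (Fin 2) Ω) * swapM = 1 := by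
  ext i j
  fin_cases i <;> fin_cases j <;> simp [swapM, Matrix.mul_apply, Fin.sum_univ_two]

omit [IsAlgClosed Ω] in
/-- A finite group of lower triangular matrices containing `diag (l, k)` with `l ≠ k` is
diagonal. -/
theorem lower_entry_eq_zero (m : G →* Matrix (Fin 2) (Fin 2) Ω) {g₀ : G} {l k : Ω}
    (hD : m g₀ = !![l, 0; 0, k]) (hlk : l ≠ k) (hb : ∀ g, m g 0 1 = 0) (h : G) :
    m h 1 0 = 0 := by
  let m' := conjHom swapM swapM swapM_mul_self swapM_mul_self m
  have e : ∀ g i j, m' g i j = m g (Equiv.swap 0 1 i) (Equiv.swap 0 1 j) := by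
    intro g i j
    fin_cases i <;> fin_cases j <;>
      simp [m', swapM, Matrix.mul_apply, Fin.sum_univ_two, Matrix.vecMul, dotProduct]
  have hD' : m' g₀ = !![k, 0; 0, l] := by
    ext i j
    rw [e, hD]
    fin_cases i <;> fin_cases j <;> simp
  have hc' : ∀ g, m' g 1 0 = 0 := fun g => by
    rw [e]
    simpa using hb g
  have := upper_entry_eq_zero m' hD' (Ne.symm hlk) hc' h
  rw [e] at this
  simpa using this

/-- Core of the argument: if `m g₀ = diag (l, k)` with `l ≠ k` algebraic, a diagonal conjugation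
makes all entries algebraic. -/
theorem exists_conj_alg_of_diag (m : G →* Matrix (Fin 2) (Fin 2) Ω) {g₀ : G} {l k : Ω}
    (hD : m g₀ = !![l, 0; 0, k]) (hlk : l ≠ k) (hl : Alg l) (hk : Alg k) :
    ∃ B C : Matrix (Fin 2) (Fin 2) Ω, C * B = 1 ∧ B * C = 1 ∧
      ∀ g i j, Alg ((C * m g * B) i j) := by
  have hdiag := alg_diag_entries m hD hlk hl hk
  have hprod := alg_off_diag_mul m hD hlk hl hk
  by_cases hb : ∃ h₀, m h₀ 0 1 ≠ 0
  · obtain ⟨h₀, hb₀⟩ := hb
    -- some lower-left entry is nonzero as well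
    obtain ⟨h₁, hc₁⟩ : ∃ h₁, m h₁ 1 0 ≠ 0 := by
      by_contra hcon
      simp only [not_exists, not_not] at hcon
      exact hb₀ (upper_entry_eq_zero m hD hlk hcon h₀)
    set b₀ := m h₀ 0 1 with hb₀def
    have hCB : (!![b₀⁻¹, 0; 0, 1] : Matrix (Fin 2) (Fin 2) Ω) * !![b₀, 0; 0, 1] = 1 := by
      ext i j
      fin_cases i <;> fin_cases j <;> simp [Matrix.mul_apply, Fin.sum_univ_two, hb₀]
    have hBC : (!![b₀, 0; 0, 1] : Matrix (Fin 2) (Fin 2) Ω) * !![b₀⁻¹, 0; 0, 1] = 1 := by
      ext i j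
      fin_cases i <;> fin_cases j <;> simp [Matrix.mul_apply, Fin.sum_univ_two, hb₀]
    refine ⟨!![b₀, 0; 0, 1], !![b₀⁻¹, 0; 0, 1], hCB, hBC, fun g i j => ?_⟩
    have e00 : (!![b₀⁻¹, 0; 0, 1] * m g * !![b₀, 0; 0, 1]) 0 0 = m g 0 0 := by
      simp [Matrix.mul_apply, Fin.sum_univ_two, Matrix.vecMul, dotProduct]
      field_simp
    have e01 : (!![b₀⁻¹, 0; 0, 1] * m g * !![b₀, 0; 0, 1]) 0 1
        = (m g 0 1 * m h₁ 1 0) / (b₀ * m h₁ 1 0) := by
      simp [Matrix.mul_apply, Fin.sum_univ_two, Matrix.vecMul, dotProduct]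
      field_simp
    have e10 : (!![b₀⁻¹, 0; 0, 1] * m g * !![b₀, 0; 0, 1]) 1 0 = b₀ * m g 1 0 := by
      simp [Matrix.mul_apply, Fin.sum_univ_two, Matrix.vecMul, dotProduct]
      ring
    have e11 : (!![b₀⁻¹, 0; 0, 1] * m g * !![b₀, 0; 0, 1]) 1 1 = m g 1 1 := by
      simp [Matrix.mul_apply, Fin.sum_univ_two, Matrix.vecMul, dotProduct]
    fin_cases i <;> fin_cases j
    · exact e00 ▸ (hdiag g).1
    · exact e01 ▸ div_mem (hprod g h₁) (hprod h₀ h₁)
    · exact e10 ▸ hprod h₀ g
    · exact e11 ▸ (hdiag g).2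
  · simp only [not_exists, not_not] at hb
    have hc := lower_entry_eq_zero m hD hlk hb
    refine ⟨1, 1, one_mul 1, one_mul 1, fun g i j => ?_⟩
    rw [one_mul, mul_one]
    fin_cases i <;> fin_cases j
    · exact (hdiag g).1
    · exact (hb g) ▸ zero_mem _
    · exact (hc g) ▸ zero_mem _
    · exact (hdiag g).2

/-- A matrix-valued homomorphism of a finite group is conjugate to one with algebraic entries. -/
theorem exists_conj_alg (m : G →* Matrix (Fin 2) (Fin 2) Ω) :
    ∃ B C : Matrix (Fin 2) (Fin 2) Ω, C * B = 1 ∧ B * C = 1 ∧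
      ∀ g i j, Alg ((C * m g * B) i j) := by
  have hn : 0 < Nat.card G := Nat.card_pos
  by_cases hs : ∀ g, ∃ c : Ω, m g = c • (1 : Matrix (Fin 2) (Fin 2) Ω)
  · refine ⟨1, 1, one_mul 1, one_mul 1, fun g i j => ?_⟩
    rw [one_mul, mul_one]
    obtain ⟨c, hc⟩ := hs g
    have hpow := hom_pow_card m g
    rw [hc, smul_pow, one_pow] at hpow
    have hc1 : c ^ Nat.card G = 1 := by
      have := congrFun (congrFun hpow 0) 0
      simpa using this
    have hcalg := alg_of_pow_eq_one hn hc1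
    rw [hc, Matrix.smul_apply, smul_eq_mul]
    by_cases hij : i = j
    · rw [hij, Matrix.one_apply_eq, mul_one]
      exact hcalg
    · rw [Matrix.one_apply_ne hij, mul_zero]
      exact zero_mem (algebraicClosure ℚ Ω)
  · simp only [not_forall, not_exists] at hs
    obtain ⟨g₀, hg₀⟩ := hs
    obtain ⟨l, k, B₁, hlk, hl, hk, hB₁, hMB⟩ :=
      exists_diagonalisation hn (hom_pow_card m g₀) hg₀
    have hu : IsUnit B₁.det := isUnit_iff_ne_zero.mpr hB₁
    have hCB₁ : B₁⁻¹ * B₁ = 1 := Matrix.nonsing_inv_mul _ hu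
    have hBC₁ : B₁ * B₁⁻¹ = 1 := Matrix.mul_nonsing_inv _ hu
    let m₁ := conjHom B₁ B₁⁻¹ hCB₁ hBC₁ m
    have hD : m₁ g₀ = !![l, 0; 0, k] := by
      change B₁⁻¹ * m g₀ * B₁ = _
      rw [mul_assoc, hMB, ← mul_assoc, hCB₁, one_mul]
    obtain ⟨B₂, C₂, hCB₂, hBC₂, halg⟩ := exists_conj_alg_of_diag m₁ hD hlk
      (alg_of_pow_eq_one hn hl) (alg_of_pow_eq_one hn hk)
    refine ⟨B₁ * B₂, C₂ * B₁⁻¹, ?_, ?_, fun g i j => ?_⟩
    · calc C₂ * B₁⁻¹ * (B₁ * B₂) = C₂ * (B₁⁻¹ * B₁) * B₂ := by simp only [mul_assoc]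
        _ = 1 := by rw [hCB₁, mul_one, hCB₂]
    · calc B₁ * B₂ * (C₂ * B₁⁻¹) = B₁ * (B₂ * C₂) * B₁⁻¹ := by simp only [mul_assoc]
        _ = 1 := by rw [hBC₂, mul_one, hBC₁]
    · have := halg g i j
      have e : C₂ * B₁⁻¹ * m g * (B₁ * B₂) = C₂ * m₁ g * B₂ := by
        change _ = C₂ * (B₁⁻¹ * m g * B₁) * B₂
        simp only [mul_assoc]
      rw [e]
      exact this

end hom

section glsec

variable [IsAlgClosed Ω] [CharZero Ω] {G : Type*} [Group G] [Finite G]

/-- **(L2)** Every homomorphism from a finite group to `GL₂(Ω)` is conjugate to one with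
algebraic matrix entries. -/
theorem exists_conj_isAlgebraic (ρ : G →* GL (Fin 2) Ω) :
    ∃ P : GL (Fin 2) Ω, ∀ g (i j : Fin 2),
      IsAlgebraic ℚ (((P * ρ g * P⁻¹ : GL (Fin 2) Ω) : Matrix (Fin 2) (Fin 2) Ω) i j) := by
  obtain ⟨B, C, hCB, hBC, h⟩ := exists_conj_alg ((Units.coeHom _).comp ρ)
  refine ⟨⟨C, B, hCB, hBC⟩, fun g i j => ?_⟩
  have := h g i j
  rw [Alg, mem_algebraicClosure_iff] at this
  exact this

/-- **(L2), consumer form.** If the range of `ι : K →+* Ω` contains all algebraic elements, every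
homomorphism from a finite group to `GL₂(Ω)` is conjugate to the image under `ι` of a
homomorphism to `GL₂(K)`. -/
theorem exists_conj_map {K : Type*} [Field K] (ι : K →+* Ω)
    (hι : ∀ x : Ω, IsAlgebraic ℚ x → x ∈ ι.range) (ρ : G →* GL (Fin 2) Ω) :
    ∃ (ρ' : G →* GL (Fin 2) K) (P : GL (Fin 2) Ω),
      ∀ g, Matrix.GeneralLinearGroup.map ι (ρ' g) = P * ρ g * P⁻¹ := by
  obtain ⟨P, hP⟩ := exists_conj_isAlgebraic ρ
  have hx : ∀ g (i j : Fin 2), ∃ x : K,
      ι x = ((P * ρ g * P⁻¹ : GL (Fin 2) Ω) : Matrix (Fin 2) (Fin 2) Ω) i j := fun g i j =>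
    hι _ (hP g i j)
  choose x hxspec using hx
  have hmap : ∀ g, (Matrix.of (x g)).map ι
      = ((P * ρ g * P⁻¹ : GL (Fin 2) Ω) : Matrix (Fin 2) (Fin 2) Ω) := by
    intro g
    ext i j
    simp [hxspec]
  have hinj : Function.Injective (fun M : Matrix (Fin 2) (Fin 2) K => M.map ι) :=
    Matrix.map_injective ι.injective
  let m' : G →* Matrix (Fin 2) (Fin 2) K :=
    { toFun := fun g => Matrix.of (x g)
      map_one' := by
        apply hinj
        change (Matrix.of (x 1)).map ι = (1 : Matrix (Fin 2) (Fin 2) K).map ι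
        rw [hmap, Matrix.map_one _ (map_zero ι) (map_one ι)]
        simp
      map_mul' := fun g h => by
        apply hinj
        change (Matrix.of (x (g * h))).map ι = ((Matrix.of (x g)) * (Matrix.of (x h))).map ι
        rw [Matrix.map_mul, hmap, hmap, hmap, map_mul]
        simp [mul_assoc] }
  refine ⟨m'.toHomUnits, P, fun g => ?_⟩
  apply Units.ext
  change ((m'.toHomUnits g : (Matrix (Fin 2) (Fin 2) K)ˣ) : Matrix (Fin 2) (Fin 2) K).map ι = _
  rw [MonoidHom.coe_toHomUnits]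
  exact hmap g

/-- Consumer corollary: the descended homomorphism has the same traces and determinants. -/
theorem exists_map_trace_det {K : Type*} [Field K] (ι : K →+* Ω)
    (hι : ∀ x : Ω, IsAlgebraic ℚ x → x ∈ ι.range) (ρ : G →* GL (Fin 2) Ω) :
    ∃ ρ' : G →* GL (Fin 2) K, ∀ g,
      ι ((ρ' g : Matrix (Fin 2) (Fin 2) K).trace) = (ρ g : Matrix (Fin 2) (Fin 2) Ω).trace ∧
      ι ((ρ' g : Matrix (Fin 2) (Fin 2) K).det) = (ρ g : Matrix (Fin 2) (Fin 2) Ω).det := by
  obtain ⟨ρ', P, h⟩ := exists_conj_map ι hι ρ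
  refine ⟨ρ', fun g => ?_⟩
  have h1 : ((ρ' g : GL (Fin 2) K) : Matrix (Fin 2) (Fin 2) K).map ι
      = ((P * ρ g * P⁻¹ : GL (Fin 2) Ω) : Matrix (Fin 2) (Fin 2) Ω) := by
    rw [← h g]
    rfl
  have h2 : ((P * ρ g * P⁻¹ : GL (Fin 2) Ω) : Matrix (Fin 2) (Fin 2) Ω)
      = (P : Matrix (Fin 2) (Fin 2) Ω) * (ρ g : Matrix (Fin 2) (Fin 2) Ω)
        * ((P⁻¹ : GL (Fin 2) Ω) : Matrix (Fin 2) (Fin 2) Ω) := by
    simp [Units.val_mul]
  constructor
  · have := congrArg Matrix.trace h1
    rw [h2, Matrix.trace_units_conj] at this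
    rw [← this]
    simp [Matrix.trace, Matrix.diag]
  · have := congrArg Matrix.det h1
    rw [h2, Matrix.det_units_conj] at this
    rw [← this]
    exact RingHom.map_det ι _

end glsec

end Fermat.Agent.S48x.Lift
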