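/-
helper18.  P-S48 (Deligne-Serre), block DS4, package (L1): a homomorphism from a finite group of
order prime to `ℓ` into `GL₂(ℤ/ℓ)` lifts to `GL₂(ℤ_ℓ)`.

Route: sequential Schur-Zassenhaus along the tower `GL₂(ℤ/ℓ^(k+1)) → GL₂(ℤ/ℓ^k)` (kernels of
exponent `ℓ`), then `PadicInt.lift` on the ring of compatible sequences.
-/
import Mathlib

set_option autoImplicit false

namespace Fermat.Agent.S48x.Lift

open scoped Matrix

section Generic

variable {G P Q : Type*} [Group G] [Group P] [Group Q]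

/-- **Lifting along a surjection with kernel of coprime order** (Schur-Zassenhaus on the
pullback). -/
theorem exists_lift_of_coprime [Finite G] [Finite P] (π : P →* Q) (s : G →* Q)
    (hsurj : ∀ g : G, ∃ x : P, π x = s g)
    (hcop : Nat.Coprime (Nat.card π.ker) (Nat.card G)) :
    ∃ s' : G →* P, ∀ g, π (s' g) = s g := by
  classical
  -- the pullback
  let H : Subgroup (G × P) :=
    (s.comp (MonoidHom.fst G P)).eqLocus (π.comp (MonoidHom.snd G P))
  have hH : ∀ x : G × P, x ∈ H ↔ s x.1 = π x.2 := fun x => Iff.rfl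
  let p₁ : H →* G := (MonoidHom.fst G P).comp H.subtype
  let p₂ : H →* P := (MonoidHom.snd G P).comp H.subtype
  have hp₁ : Function.Surjective p₁ := by
    intro g
    obtain ⟨x, hx⟩ := hsurj g
    exact ⟨⟨(g, x), (hH _).mpr hx.symm⟩, rfl⟩
  have hp : ∀ h : H, π (p₂ h) = s (p₁ h) := fun h => ((hH _).mp h.2).symm
  let N : Subgroup H := p₁.ker
  -- the kernel of `p₁` embeds into the kernel of `π`
  have hNcard : Nat.card N ∣ Nat.card π.ker := by
    let φ : N →* π.ker :=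
      { toFun := fun n => ⟨p₂ n.1, by
          rw [MonoidHom.mem_ker, hp, (MonoidHom.mem_ker).mp n.2, map_one]⟩
        map_one' := Subtype.ext (map_one p₂)
        map_mul' := fun a b => Subtype.ext (map_mul p₂ a.1 b.1) }
    have hφ : Function.Injective φ := by
      intro a b hab
      have h2 : p₂ a.1 = p₂ b.1 := congrArg Subtype.val hab
      have h1 : p₁ a.1 = p₁ b.1 := by
        rw [(MonoidHom.mem_ker).mp a.2, (MonoidHom.mem_ker).mp b.2]
      apply Subtype.ext; apply Subtype.ext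
      exact Prod.ext h1 h2
    exact Subgroup.card_dvd_of_injective φ hφ
  have hNidx : N.index = Nat.card G := by
    rw [Subgroup.index_ker, MonoidHom.range_eq_top.mpr hp₁, Subgroup.card_top]
  have hcop' : Nat.Coprime (Nat.card N) N.index := by
    rw [hNidx]; exact Nat.Coprime.coprime_dvd_left hNcard hcop
  obtain ⟨C, hC⟩ := Subgroup.exists_right_complement'_of_coprime hcop'
  -- `p₁` restricted to `C` is bijective
  have hinj : Function.Injective (p₁.comp C.subtype) := by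
    rw [injective_iff_map_eq_one]
    intro c hc
    have h1 : (c : H) ∈ N := (MonoidHom.mem_ker).mpr hc
    have h2 : (c : H) ∈ N ⊓ C := ⟨h1, c.2⟩
    rw [hC.disjoint.eq_bot, Subgroup.mem_bot] at h2
    exact Subtype.ext h2
  have hsur : Function.Surjective (p₁.comp C.subtype) := by
    intro g
    obtain ⟨h, rfl⟩ := hp₁ g
    obtain ⟨⟨n, c⟩, hnc⟩ := hC.2 h
    refine ⟨c, ?_⟩
    have : (n : H) * (c : H) = h := hnc
    rw [← this, map_mul, (MonoidHom.mem_ker).mp n.2, one_mul]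
    rfl
  let e : C ≃* G := MulEquiv.ofBijective (p₁.comp C.subtype) ⟨hinj, hsur⟩
  refine ⟨(p₂.comp C.subtype).comp e.symm.toMonoidHom, fun g => ?_⟩
  have h1 : p₁ ((e.symm g : C) : H) = g := e.apply_symm_apply g
  change π (p₂ ((e.symm g : C) : H)) = s g
  rw [hp, h1]

end Generic

section SquareZero

variable {n : Type*} [Fintype n] [DecidableEq n] {R S : Type*} [CommRing R] [CommRing S]

/-- A ring homomorphism with square-zero kernel reflects units. -/
theorem isUnit_of_map_of_sqZero (f : R →+* S) (hf : Function.Surjective f)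
    (hsq : ∀ a b : R, f a = 0 → f b = 0 → a * b = 0) {x : R} (hx : IsUnit (f x)) : IsUnit x := by
  obtain ⟨u, hu⟩ := hx
  obtain ⟨y, hy⟩ := hf (↑u⁻¹ : S)
  have h1 : f (x * y - 1) = 0 := by
    rw [map_sub, map_mul, map_one, hy, ← hu, Units.mul_inv, sub_self]
  have h2 : (x * y - 1) * (x * y - 1) = 0 := hsq _ _ h1 h1
  have h3 : x * (y * (2 - x * y)) = 1 := by
    have : x * (y * (2 - x * y)) = 1 - (x * y - 1) * (x * y - 1) := by ring
    rw [this, h2, sub_zero]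
  exact IsUnit.of_mul_eq_one _ h3

/-- Every invertible matrix over the target of a surjection with square-zero kernel lifts to an
invertible matrix. -/
theorem exists_GL_lift (f : R →+* S) (hf : Function.Surjective f)
    (hsq : ∀ a b : R, f a = 0 → f b = 0 → a * b = 0) (M : GL n S) :
    ∃ M' : GL n R, Matrix.GeneralLinearGroup.map f M' = M := by
  choose g hg using hf
  let A : Matrix n n R := fun i j => g (M i j)
  have hA : A.map f = (M : Matrix n n S) := by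
    ext i j; simp [A, hg]
  have hdet : IsUnit A.det := by
    apply isUnit_of_map_of_sqZero f (fun y => ⟨g y, hg y⟩) hsq
    rw [RingHom.map_det, RingHom.mapMatrix_apply, hA]
    exact (Matrix.isUnit_iff_isUnit_det _).mp M.isUnit
  obtain ⟨u, hu⟩ := (Matrix.isUnit_iff_isUnit_det A).mpr hdet
  refine ⟨u, ?_⟩
  apply Units.ext
  ext i j
  rw [Matrix.GeneralLinearGroup.map_apply]
  have : (u : Matrix n n R) i j = A i j := by rw [hu]
  rw [this]
  exact congrFun (congrFun hA i) j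

theorem one_add_pow_of_sq_zero {A : Type*} [Ring A] {a : A} (ha : a * a = 0) (m : ℕ) :
    (1 + a) ^ m = 1 + m • a := by
  induction m with
  | zero => simp
  | succ m ih =>
    rw [pow_succ, ih, succ_nsmul]
    have h : (m • a) * a = 0 := by rw [smul_mul_assoc, ha, smul_zero]
    calc (1 + m • a) * (1 + a) = 1 + a + m • a + (m • a) * a := by noncomm_ring
      _ = 1 + (m • a + a) := by rw [h]; abel

/-- The kernel of `GL n R → GL n S` has exponent `ℓ` when the kernel of `R → S` is square-zero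
and killed by `ℓ`. -/
theorem pow_eq_one_of_mem_ker (f : R →+* S) (ℓ : ℕ)
    (hsq : ∀ a b : R, f a = 0 → f b = 0 → a * b = 0)
    (hℓ : ∀ a : R, f a = 0 → (ℓ : R) * a = 0) {M : GL n R}
    (hM : M ∈ (Matrix.GeneralLinearGroup.map (n := n) f).ker) : M ^ ℓ = 1 := by
  have h1 : ∀ i j, f ((M : Matrix n n R) i j) = (1 : Matrix n n S) i j := by
    intro i j
    have := (MonoidHom.mem_ker).mp hM
    rw [← Matrix.GeneralLinearGroup.map_apply, this]
    rfl
  set A : Matrix n n R := (M : Matrix n n R) - 1 with hAdef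
  have hA0 : ∀ i j, f (A i j) = 0 := by
    intro i j
    rw [hAdef, Matrix.sub_apply, map_sub, h1]
    by_cases hij : i = j
    · subst hij; simp
    · simp [Matrix.one_apply_ne hij]
  have hAA : A * A = 0 := by
    ext i j
    rw [Matrix.mul_apply]
    simp only [Matrix.zero_apply]
    exact Finset.sum_eq_zero fun k _ => hsq _ _ (hA0 i k) (hA0 k j)
  have hℓA : ℓ • A = 0 := by
    ext i j
    rw [Matrix.smul_apply, nsmul_eq_mul]
    exact hℓ _ (hA0 i j)
  apply Units.ext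
  have hMA : (M : Matrix n n R) = 1 + A := by rw [hAdef]; abel
  rw [Units.val_pow_eq_pow_val, hMA, one_add_pow_of_sq_zero hAA, hℓA, add_zero]
  rfl

end SquareZero

section ZModTower

variable (ℓ : ℕ) [hℓ : Fact ℓ.Prime]

/-- The reduction `ℤ/ℓ^(k+1) → ℤ/ℓ^k`. -/
noncomputable def red (k : ℕ) : ZMod (ℓ ^ (k + 1)) →+* ZMod (ℓ ^ k) :=
  ZMod.castHom (pow_dvd_pow ℓ (Nat.le_succ k)) (ZMod (ℓ ^ k))

omit hℓ in
theorem red_surjective (k : ℕ) : Function.Surjective (red ℓ k) :=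
  ZMod.castHom_surjective _

theorem exists_eq_mul_of_red_eq_zero (k : ℕ) {a : ZMod (ℓ ^ (k + 1))} (ha : red ℓ k a = 0) :
    ∃ c : ZMod (ℓ ^ (k + 1)), a = (ℓ : ZMod (ℓ ^ (k + 1))) ^ k * c := by
  have : NeZero (ℓ ^ (k + 1)) := ⟨pow_ne_zero _ hℓ.out.ne_zero⟩
  have h1 : ((a.val : ℕ) : ZMod (ℓ ^ k)) = 0 := by
    rw [← ha, red, ZMod.castHom_apply, ZMod.natCast_val]
  obtain ⟨c, hc⟩ := (ZMod.natCast_eq_zero_iff _ _).mp h1
  refine ⟨(c : ZMod (ℓ ^ (k + 1))), ?_⟩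
  have h2 : a = ((a.val : ℕ) : ZMod (ℓ ^ (k + 1))) := (ZMod.natCast_zmod_val a).symm
  rw [h2, hc]
  push_cast
  rfl

theorem red_sq_zero {k : ℕ} (hk : 1 ≤ k) (a b : ZMod (ℓ ^ (k + 1))) (ha : red ℓ k a = 0)
    (hb : red ℓ k b = 0) : a * b = 0 := by
  obtain ⟨c, rfl⟩ := exists_eq_mul_of_red_eq_zero ℓ k ha
  obtain ⟨d, rfl⟩ := exists_eq_mul_of_red_eq_zero ℓ k hb
  have h0 : ((ℓ : ZMod (ℓ ^ (k + 1))) ^ (k + 1)) = 0 := by
    have := ZMod.natCast_self (ℓ ^ (k + 1))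
    push_cast at this
    exact this
  have h1 : (ℓ : ZMod (ℓ ^ (k + 1))) ^ k * (ℓ : ZMod (ℓ ^ (k + 1))) ^ k = 0 := by
    obtain ⟨j, rfl⟩ : ∃ j, k = j + 1 := ⟨k - 1, by omega⟩
    have : (ℓ : ZMod (ℓ ^ (j + 1 + 1))) ^ (j + 1) * (ℓ : ZMod (ℓ ^ (j + 1 + 1))) ^ (j + 1) =
        (ℓ : ZMod (ℓ ^ (j + 1 + 1))) ^ (j + 1 + 1) * (ℓ : ZMod (ℓ ^ (j + 1 + 1))) ^ j := by ring
    rw [this, h0, zero_mul]
  calc (ℓ : ZMod (ℓ ^ (k + 1))) ^ k * c * ((ℓ : ZMod (ℓ ^ (k + 1))) ^ k * d)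
      = ((ℓ : ZMod (ℓ ^ (k + 1))) ^ k * (ℓ : ZMod (ℓ ^ (k + 1))) ^ k) * (c * d) := by ring
    _ = 0 := by rw [h1, zero_mul]

theorem red_mul_zero (k : ℕ) (a : ZMod (ℓ ^ (k + 1))) (ha : red ℓ k a = 0) :
    (ℓ : ZMod (ℓ ^ (k + 1))) * a = 0 := by
  obtain ⟨c, rfl⟩ := exists_eq_mul_of_red_eq_zero ℓ k ha
  have h0 : ((ℓ : ZMod (ℓ ^ (k + 1))) ^ (k + 1)) = 0 := by
    have := ZMod.natCast_self (ℓ ^ (k + 1))
    push_cast at this
    exact this
  calc (ℓ : ZMod (ℓ ^ (k + 1))) * ((ℓ : ZMod (ℓ ^ (k + 1))) ^ k * c)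
      = (ℓ : ZMod (ℓ ^ (k + 1))) ^ (k + 1) * c := by ring
    _ = 0 := by rw [h0, zero_mul]


variable {ℓ}
variable {G : Type*} [Group G] [Finite G]

/-- One step of the tower: a homomorphism into `GL₂(ℤ/ℓ^k)`, `k ≥ 1`, from a finite group of
order prime to `ℓ` lifts to `GL₂(ℤ/ℓ^(k+1))`. -/
theorem exists_lift_step (hG : ¬ ℓ ∣ Nat.card G) {k : ℕ} (hk : 1 ≤ k)
    (t : G →* GL (Fin 2) (ZMod (ℓ ^ k))) :
    ∃ t' : G →* GL (Fin 2) (ZMod (ℓ ^ (k + 1))),
      ∀ g, Matrix.GeneralLinearGroup.map (red ℓ k) (t' g) = t g := by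
  have : NeZero (ℓ ^ (k + 1)) := ⟨pow_ne_zero _ hℓ.out.ne_zero⟩
  set π : GL (Fin 2) (ZMod (ℓ ^ (k + 1))) →* GL (Fin 2) (ZMod (ℓ ^ k)) :=
    Matrix.GeneralLinearGroup.map (red ℓ k) with hπ
  have hsq := red_sq_zero ℓ hk
  have hpg : IsPGroup ℓ π.ker := by
    intro x
    refine ⟨1, ?_⟩
    rw [pow_one]
    apply Subtype.ext
    rw [Subgroup.coe_pow, Subgroup.coe_one]
    refine pow_eq_one_of_mem_ker (red ℓ k) ℓ hsq (fun a ha => ?_) x.2
    exact red_mul_zero ℓ k a ha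
  obtain ⟨m, hm⟩ := (IsPGroup.iff_card).mp hpg
  have hcop : Nat.Coprime (Nat.card π.ker) (Nat.card G) := by
    rw [hm]
    exact Nat.Coprime.pow_left m ((Nat.Prime.coprime_iff_not_dvd hℓ.out).mpr hG)
  exact exists_lift_of_coprime π t
    (fun g => exists_GL_lift (red ℓ k) (red_surjective ℓ k) hsq (t g)) hcop

end ZModTower

section Tower

variable {ℓ : ℕ} [hℓ : Fact ℓ.Prime] {G : Type*} [Group G] [Finite G]

/-- The identification `ℤ/ℓ = ℤ/ℓ^(0+1)`. -/
noncomputable def baseEquiv (ℓ : ℕ) : ZMod ℓ ≃+* ZMod (ℓ ^ (0 + 1)) :=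
  ZMod.ringEquivCongr (by simp)

/-- The tower of lifts `G → GL₂(ℤ/ℓ^(k+1))`. -/
noncomputable def tower (hG : ¬ ℓ ∣ Nat.card G) (r : G →* GL (Fin 2) (ZMod ℓ)) :
    (k : ℕ) → (G →* GL (Fin 2) (ZMod (ℓ ^ (k + 1))))
  | 0 => (Matrix.GeneralLinearGroup.map (baseEquiv ℓ).toRingHom).comp r
  | (k + 1) =>
    Classical.choose (exists_lift_step hG (Nat.succ_le_succ (Nat.zero_le k)) (tower hG r k))

theorem tower_succ (hG : ¬ ℓ ∣ Nat.card G) (r : G →* GL (Fin 2) (ZMod ℓ)) (k : ℕ) (g : G) :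
    Matrix.GeneralLinearGroup.map (red ℓ (k + 1)) (tower hG r (k + 1) g) = tower hG r k g :=
  Classical.choose_spec
    (exists_lift_step hG (Nat.succ_le_succ (Nat.zero_le k)) (tower hG r k)) g

/-- The levels `G → GL₂(ℤ/ℓ^k)`, for all `k ≥ 0`. -/
noncomputable def level (hG : ¬ ℓ ∣ Nat.card G) (r : G →* GL (Fin 2) (ZMod ℓ)) (k : ℕ) :
    G →* GL (Fin 2) (ZMod (ℓ ^ k)) :=
  (Matrix.GeneralLinearGroup.map (red ℓ k)).comp (tower hG r k)

theorem level_succ (hG : ¬ ℓ ∣ Nat.card G) (r : G →* GL (Fin 2) (ZMod ℓ)) (k : ℕ) (g : G) :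
    level hG r (k + 1) g = tower hG r k g :=
  tower_succ hG r k g

theorem level_apply (hG : ¬ ℓ ∣ Nat.card G) (r : G →* GL (Fin 2) (ZMod ℓ)) (k : ℕ) (g : G)
    (i j : Fin 2) : level hG r k g i j = red ℓ k (level hG r (k + 1) g i j) := by
  rw [level_succ]
  rfl

theorem level_compat (hG : ¬ ℓ ∣ Nat.card G) (r : G →* GL (Fin 2) (ZMod ℓ)) (g : G)
    (i j : Fin 2) (k1 k2 : ℕ) (h : k1 ≤ k2) :
    ZMod.castHom (pow_dvd_pow ℓ h) (ZMod (ℓ ^ k1)) (level hG r k2 g i j) =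
      level hG r k1 g i j := by
  induction k2, h using Nat.le_induction with
  | base => simp
  | succ k2 h ih =>
    rw [← ih, level_apply hG r k2 g i j, red, ← RingHom.comp_apply, ZMod.castHom_comp]

/-- The ring of compatible sequences, i.e. the projective limit of the `ℤ/ℓ^k`. -/
def compatSeq (ℓ : ℕ) : Subring (∀ k : ℕ, ZMod (ℓ ^ k)) where
  carrier := {x | ∀ (k1 k2 : ℕ) (h : k1 ≤ k2),
    ZMod.castHom (pow_dvd_pow ℓ h) (ZMod (ℓ ^ k1)) (x k2) = x k1}
  mul_mem' := by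
    intro x y hx hy k1 k2 h
    rw [Pi.mul_apply, map_mul, hx k1 k2 h, hy k1 k2 h, Pi.mul_apply]
  one_mem' := by
    intro k1 k2 h
    rw [Pi.one_apply, map_one, Pi.one_apply]
  add_mem' := by
    intro x y hx hy k1 k2 h
    rw [Pi.add_apply, map_add, hx k1 k2 h, hy k1 k2 h, Pi.add_apply]
  zero_mem' := by
    intro k1 k2 h
    rw [Pi.zero_apply, map_zero, Pi.zero_apply]
  neg_mem' := by
    intro x hx k1 k2 h
    rw [Pi.neg_apply, map_neg, hx k1 k2 h, Pi.neg_apply]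

/-- The projections of the ring of compatible sequences. -/
def compatProj (ℓ : ℕ) (k : ℕ) : compatSeq ℓ →+* ZMod (ℓ ^ k) :=
  (Pi.evalRingHom (fun k : ℕ => ZMod (ℓ ^ k)) k).comp (compatSeq ℓ).subtype

theorem compatProj_compat (ℓ : ℕ) (k1 k2 : ℕ) (hk : k1 ≤ k2) :
    (ZMod.castHom (pow_dvd_pow ℓ hk) (ZMod (ℓ ^ k1))).comp (compatProj ℓ k2) = compatProj ℓ k1 := by
  ext x
  exact x.2 k1 k2 hk

/-- The comparison map from compatible sequences to `ℤ_ℓ`. -/
noncomputable def compatLim (ℓ : ℕ) [Fact ℓ.Prime] : compatSeq ℓ →+* ℤ_[ℓ] :=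
  PadicInt.lift (compatProj_compat ℓ)

theorem toZModPow_compatLim (k : ℕ) (x : compatSeq ℓ) :
    PadicInt.toZModPow k (compatLim ℓ x) = x.1 k :=
  congrArg (fun f => f x) (PadicInt.lift_spec (compatProj_compat ℓ) k)

/-- The matrix of compatible sequences attached to `g`. -/
noncomputable def seqMatrix (hG : ¬ ℓ ∣ Nat.card G) (r : G →* GL (Fin 2) (ZMod ℓ)) (g : G) :
    Matrix (Fin 2) (Fin 2) (compatSeq ℓ) :=
  fun i j => ⟨fun k => level hG r k g i j, fun k1 k2 h => level_compat hG r g i j k1 k2 h⟩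

theorem seqMatrix_one (hG : ¬ ℓ ∣ Nat.card G) (r : G →* GL (Fin 2) (ZMod ℓ)) :
    seqMatrix hG r 1 = 1 := by
  ext i j k
  change level hG r k 1 i j = ((1 : Matrix (Fin 2) (Fin 2) (compatSeq ℓ)) i j).1 k
  rw [map_one]
  by_cases hij : i = j
  · subst hij; simp
  · simp [Matrix.one_apply_ne hij]

theorem seqMatrix_mul (hG : ¬ ℓ ∣ Nat.card G) (r : G →* GL (Fin 2) (ZMod ℓ)) (g h : G) :
    seqMatrix hG r (g * h) = seqMatrix hG r g * seqMatrix hG r h := by
  ext i j k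
  change level hG r k (g * h) i j = ((seqMatrix hG r g * seqMatrix hG r h) i j).1 k
  rw [map_mul, Matrix.mul_apply]
  have : ((∑ m, seqMatrix hG r g i m * seqMatrix hG r h m j : compatSeq ℓ)).1 k =
      ∑ m, level hG r k g i m * level hG r k h m j := by
    rw [← Subring.subtype_apply, map_sum, Finset.sum_apply]
    rfl
  rw [this]
  rfl

/-- The lift to `M₂(ℤ_ℓ)` as a monoid homomorphism. -/
noncomputable def padicMatHom (hG : ¬ ℓ ∣ Nat.card G) (r : G →* GL (Fin 2) (ZMod ℓ)) :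
    G →* Matrix (Fin 2) (Fin 2) ℤ_[ℓ] where
  toFun g := (seqMatrix hG r g).map (compatLim ℓ)
  map_one' := by
    rw [seqMatrix_one]
    exact map_one (compatLim ℓ).mapMatrix
  map_mul' g h := by
    rw [seqMatrix_mul]
    exact map_mul (compatLim ℓ).mapMatrix _ _

/-- The lift to `GL₂(ℤ_ℓ)`. -/
noncomputable def padicLift (hG : ¬ ℓ ∣ Nat.card G) (r : G →* GL (Fin 2) (ZMod ℓ)) :
    G →* GL (Fin 2) ℤ_[ℓ] :=
  (padicMatHom hG r).toHomUnits

theorem toZModPow_padicLift (hG : ¬ ℓ ∣ Nat.card G) (r : G →* GL (Fin 2) (ZMod ℓ)) (k : ℕ)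
    (g : G) (i j : Fin 2) :
    PadicInt.toZModPow k (padicLift hG r g i j) = level hG r k g i j := by
  change PadicInt.toZModPow k (compatLim ℓ (seqMatrix hG r g i j)) = _
  rw [toZModPow_compatLim]
  rfl

end Tower

section Final

variable {ℓ : ℕ} [hℓ : Fact ℓ.Prime] {G : Type*} [Group G] [Finite G]

/-- Every ring homomorphism `ℤ_ℓ → ℤ/ℓ` is the canonical one. -/
theorem ringHom_eq_toZMod (φ : ℤ_[ℓ] →+* ZMod ℓ) : φ = PadicInt.toZMod := by
  ext x
  have h1 := PadicInt.toZMod_spec (p := ℓ) x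
  rw [PadicInt.maximalIdeal_eq_span_p, Ideal.mem_span_singleton] at h1
  obtain ⟨y, hy⟩ := h1
  have h2 : x = (ZMod.cast (PadicInt.toZMod x) : ℤ_[ℓ]) + (ℓ : ℤ_[ℓ]) * y := by
    rw [← hy]; ring
  have h3 : φ (ZMod.cast (PadicInt.toZMod x) : ℤ_[ℓ]) = PadicInt.toZMod x := by
    rw [ZMod.cast_eq_val, map_natCast, ZMod.natCast_zmod_val]
  conv_lhs => rw [h2]
  rw [map_add, map_mul, map_natCast, ZMod.natCast_self, zero_mul, add_zero, h3]

/-- **(L1)** A homomorphism from a finite group of order prime to `ℓ` into `GL₂(ℤ/ℓ)` lifts to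
`GL₂(ℤ_ℓ)`. -/
theorem exists_padic_lift (hG : ¬ ℓ ∣ Nat.card G) (r : G →* GL (Fin 2) (ZMod ℓ)) :
    ∃ ρ : G →* GL (Fin 2) ℤ_[ℓ], ∀ g i j, PadicInt.toZMod (ρ g i j) = r g i j := by
  refine ⟨padicLift hG r, fun g i j => ?_⟩
  have h1 : PadicInt.toZModPow (0 + 1) (padicLift hG r g i j) = baseEquiv ℓ (r g i j) := by
    rw [toZModPow_padicLift, level_succ]
    rfl
  have h2 := ringHom_eq_toZMod
    ((baseEquiv ℓ).symm.toRingHom.comp (PadicInt.toZModPow (p := ℓ) (0 + 1)))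
  rw [← h2]
  change (baseEquiv ℓ).symm (PadicInt.toZModPow (0 + 1) (padicLift hG r g i j)) = _
  rw [h1, RingEquiv.symm_apply_apply]

end Final

end Fermat.Agent.S48x.Lift
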