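import Mathlib
import Fermat.Prelude.Def_GaloisRep_CompletionBridge
import Fermat.Agent.Lib.FrobeniusExistsAt
import Fermat.Agent.Lib.CFT.Profinite.BridgePlaces
import Fermat.Agent.S48x.Lift.Zl
import Fermat.Agent.S48x.Lift.Algebraic

/-!
# P-S48 (Deligne–Serre), blocks (L3) + (L-final): places over `l` and the lifting lemma (helper19)

* `exists_algEquiv_forall_mem_iff`: in a Galois extension `L` of `ℚ`, two valuation subrings over
  the same prime `l` are conjugate under `Gal(L/ℚ)`;
* `exists_smul_padicPlace`: every valuation subring of `ℚ̄` over `l` is a Galois conjugate of the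
  `l`-adic place `padicPlace l` of the Prelude;
* `exists_lift`: a representation `r : G → GL₂(𝔽_l)` of a finite group of order prime to `l`
  lifts to `ρ : G → GL₂(ℚ̄)` with integral traces and determinants congruent to those of `r`
  modulo any prescribed valuation subring over `l`.
-/

set_option autoImplicit false

universe u

open scoped Pointwise NNReal

namespace Fermat.Agent.S48x.Lift

open Fermat.Agent.Lib

/-! ### Valuation subrings over the same prime are conjugate -/

section Conj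

variable {L : Type u} [Field L] [Algebra ℚ L]

/-- A valuation subring `A` of an algebraic extension of `ℚ` over `l` is determined by the
algebraic integers that are non-units of `A`. -/
theorem mem_iff_exists_integral [Algebra.IsAlgebraic ℚ L] (A : ValuationSubring L) {ℓ : ℕ}
    (hℓ : ℓ.Prime) (hA : A.LiesOverPrime ℓ) (x : L) :
    x ∈ A ↔ ∃ s : L, IsIntegral ℤ s ∧ s ∉ A.nonunits ∧ IsIntegral ℤ (s * x) := by
  have : CharZero L := algebraRat.charZero L
  constructor
  · intro hx
    have hxalg : IsAlgebraic ℤ x :=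
      (IsFractionRing.isAlgebraic_iff ℤ ℚ L).mpr (Algebra.IsAlgebraic.isAlgebraic x)
    exact exists_integral_mul A hℓ hA hx hxalg
  · rintro ⟨s, hs, hsn, hsx⟩
    have hsA : s ∈ A := mem_valuationSubring_of_isIntegral A hs
    have hsxA : s * x ∈ A := mem_valuationSubring_of_isIntegral A hsx
    have h1 : A.valuation s = 1 := by
      rw [ValuationSubring.mem_nonunits_iff, not_lt] at hsn
      exact le_antisymm ((A.valuation_le_one_iff _).mpr hsA) hsn
    have h3 := (A.valuation_le_one_iff _).mpr hsxA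
    rw [map_mul, h1, one_mul] at h3
    exact (A.valuation_le_one_iff _).mp h3

/-- In a Galois extension of `ℚ`, two valuation subrings over the same prime are conjugate. -/
theorem exists_algEquiv_forall_mem_iff [IsGalois ℚ L] {ℓ : ℕ} (hℓ : ℓ.Prime)
    (A B : ValuationSubring L) (hA : A.LiesOverPrime ℓ) (hB : B.LiesOverPrime ℓ) :
    ∃ γ : L ≃ₐ[ℚ] L, ∀ x : L, x ∈ A ↔ γ x ∈ B := by
  have : CharZero L := algebraRat.charZero L
  let _ := galActionIntegers (L := L)
  have := galActionIntegers_smulComm (L := L)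
  have := galActionIntegers_isInvariant (L := L)
  let _ : TopologicalSpace (integralClosure ℤ L) := ⊥
  have : DiscreteTopology (integralClosure ℤ L) := ⟨rfl⟩
  have : ContinuousSMul (L ≃ₐ[ℚ] L) (integralClosure ℤ L) := by
    rw [continuousSMul_iff_stabilizer_isOpen]
    intro b
    convert stabilizer_isOpen_of_isIntegral (K := ℚ) (L := L) (b : L) using 1
    ext σ
    simp only [SetLike.mem_coe, MulAction.mem_stabilizer_iff]
    constructor
    · intro h
      exact congrArg Subtype.val h
    · intro h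
      exact Subtype.ext h
  let P := primeOfValuationSubring A
  let Q := primeOfValuationSubring B
  have hPp : P.IsPrime := primeOfValuationSubring_isPrime A
  have hQp : Q.IsPrime := primeOfValuationSubring_isPrime B
  -- both primes lie over `(ℓ)`
  have hmax : (Ideal.span {(ℓ : ℤ)}).IsMaximal :=
    PrincipalIdealRing.isMaximal_of_irreducible (Nat.prime_iff_prime_int.mp hℓ).irreducible
  have hunder : ∀ (C : ValuationSubring L), C.LiesOverPrime ℓ →
      (primeOfValuationSubring C).under ℤ = Ideal.span {(ℓ : ℤ)} := by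
    intro C hC
    have hCp : (primeOfValuationSubring C).IsPrime := primeOfValuationSubring_isPrime C
    have hle : Ideal.span {(ℓ : ℤ)} ≤ (primeOfValuationSubring C).under ℤ := by
      rw [Ideal.span_le, Set.singleton_subset_iff]
      show algebraMap ℤ (integralClosure ℤ L) (ℓ : ℤ) ∈ primeOfValuationSubring C
      rw [mem_primeOfValuationSubring]
      have hC' : (ℓ : L) ∈ C.nonunits := hC
      simpa using hC'
    have hne : (primeOfValuationSubring C).under ℤ ≠ ⊤ := (Ideal.IsPrime.under ℤ _).ne_top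
    exact (hmax.eq_of_le hne hle).symm
  have hPQ : P.under ℤ = Q.under ℤ := by rw [hunder A hA, hunder B hB]
  obtain ⟨g, hg⟩ := Algebra.IsInvariant.exists_smul_of_under_eq_of_profinite
    (A := ℤ) (B := integralClosure ℤ L) (G := L ≃ₐ[ℚ] L) P Q hPQ
  -- integral non-units correspond
  have hkey : ∀ s : L, IsIntegral ℤ s → (s ∈ A.nonunits ↔ g s ∈ B.nonunits) := by
    intro s hs
    have h1 : (⟨s, hs⟩ : integralClosure ℤ L) ∈ P ↔ g • (⟨s, hs⟩ : integralClosure ℤ L) ∈ g • P :=
      (Ideal.smul_mem_pointwise_smul_iff).symm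
    rw [← hg] at h1
    exact h1
  refine ⟨g, fun x => ?_⟩
  have : Algebra.IsAlgebraic ℚ L := inferInstance
  rw [mem_iff_exists_integral A hℓ hA x, mem_iff_exists_integral B hℓ hB (g x)]
  constructor
  · rintro ⟨s, hs, hsn, hsx⟩
    refine ⟨g s, hs.map g, fun h => hsn ((hkey s hs).mpr h), ?_⟩
    rw [← map_mul]
    exact hsx.map g
  · rintro ⟨t, ht, htn, htx⟩
    have hs : IsIntegral ℤ (g.symm t) := ht.map g.symm
    refine ⟨g.symm t, hs, fun h => htn ?_, ?_⟩
    · have := (hkey _ hs).mp h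
      rwa [AlgEquiv.apply_symm_apply] at this
    · have h2 : g.symm t * x = g.symm (t * g x) := by
        rw [map_mul, AlgEquiv.symm_apply_apply]
      rw [h2]
      exact htx.map g.symm

end Conj

/-! ### The `l`-adic place of the Prelude -/

section Place

variable (l : ℕ) [Fact l.Prime]

local notation "Qb" => AlgebraicClosure ℚ

theorem mem_padicPlace_nonunits_iff {x : Qb} :
    x ∈ (padicPlace l).nonunits ↔ ‖padicEmbedding l x‖ < 1 := by
  rw [ValuationSubring.mem_nonunits_iff_or, mem_padicPlace_iff]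
  by_cases hx : x = 0
  · subst hx
    simp
  · have hne : padicEmbedding l x ≠ 0 := by
      exact fun h => hx ((map_eq_zero_iff _ (padicEmbedding l).toRingHom.injective).mp h)
    have hpos : 0 < ‖padicEmbedding l x‖ := norm_pos_iff.mpr hne
    rw [map_inv₀, ← NNReal.coe_le_coe, coe_nnnorm, norm_inv, NNReal.coe_one]
    constructor
    · rintro (h | h)
      · exact absurd h hx
      · rw [not_le] at h
        by_contra hcon
        rw [not_lt] at hcon
        exact absurd (inv_le_one_of_one_le₀ hcon) (not_le.mpr h)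
    · intro h
      right
      rw [not_le]
      exact (one_lt_inv₀ hpos).mpr h

theorem padicPlace_liesOverPrime : (padicPlace l).LiesOverPrime l := by
  show ((l : ℕ) : Qb) ∈ (padicPlace l).nonunits
  rw [mem_padicPlace_nonunits_iff, map_natCast]
  have h := PadicAlgCl.valuation_p l
  have h2 : ‖((l : ℕ) : PadicAlgCl l)‖ = 1 / (l : ℝ) := by
    rw [← PadicAlgCl.valuation_coe, h]
    simp
  rw [h2]
  have hl : (1 : ℝ) < l := by exact_mod_cast (Fact.out : l.Prime).one_lt
  rw [div_lt_one (by linarith)]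
  exact hl

/-- (L3) Every valuation subring of `ℚ̄` over `l` is a Galois conjugate of `padicPlace l`. -/
theorem exists_smul_padicPlace (A : ValuationSubring Qb) (hA : A.LiesOverPrime l) :
    ∃ γ : Qb ≃ₐ[ℚ] Qb, ∀ x : Qb, x ∈ A ↔ γ x ∈ padicPlace l :=
  haveI := isGalois_algebraicClosure_rat
  exists_algEquiv_forall_mem_iff (Fact.out : l.Prime) A (padicPlace l) hA
    (padicPlace_liesOverPrime l)

/-- The nonunit version of `exists_smul_padicPlace`. -/
theorem exists_smul_padicPlace' (A : ValuationSubring Qb) (hA : A.LiesOverPrime l) :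
    ∃ γ : Qb ≃ₐ[ℚ] Qb, (∀ x : Qb, x ∈ A ↔ γ x ∈ padicPlace l) ∧
      ∀ x : Qb, x ∈ A.nonunits ↔ γ x ∈ (padicPlace l).nonunits := by
  obtain ⟨γ, hγ⟩ := exists_smul_padicPlace l A hA
  refine ⟨γ, hγ, fun x => ?_⟩
  rw [ValuationSubring.mem_nonunits_iff_or, ValuationSubring.mem_nonunits_iff_or, hγ, map_inv₀,
    map_eq_zero_iff _ γ.injective]

/-- Every valuation subring of `ℚ̄` over `l` is cut out by the `l`-adic norm along a suitable
embedding `ℚ̄ → PadicAlgCl l`, whose range contains all elements algebraic over `ℚ`. -/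
theorem exists_embedding_padicAlgCl (A : ValuationSubring Qb) (hA : A.LiesOverPrime l) :
    ∃ ι : Qb →+* PadicAlgCl l,
      (∀ y : PadicAlgCl l, IsAlgebraic ℚ y → y ∈ ι.range) ∧
      (∀ x : Qb, x ∈ A ↔ ‖ι x‖ ≤ 1) ∧ (∀ x : Qb, x ∈ A.nonunits ↔ ‖ι x‖ < 1) := by
  obtain ⟨γ, hγ, hγ'⟩ := exists_smul_padicPlace' l A hA
  refine ⟨(padicEmbedding l).toRingHom.comp (γ : Qb →+* Qb), ?_, ?_, ?_⟩
  · intro y hy
    obtain ⟨β, hβ⟩ := CFT.Profinite.Bridge.mem_range_padicEmbedding_of_isAlgebraic l hy
    refine ⟨γ.symm β, ?_⟩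
    show padicEmbedding l (γ (γ.symm β)) = y
    rw [AlgEquiv.apply_symm_apply, hβ]
  · intro x
    rw [hγ, mem_padicPlace_iff, ← NNReal.coe_le_coe, coe_nnnorm, NNReal.coe_one]
    rfl
  · intro x
    rw [hγ', mem_padicPlace_nonunits_iff]
    rfl

end Place

/-! ### `l`-adic integers inside `PadicAlgCl l` -/

section PadicInt

variable (l : ℕ) [Fact l.Prime]

/-- The canonical ring homomorphism `ℤ_[l] → PadicAlgCl l`. -/
noncomputable def padicIntToAlgCl : ℤ_[l] →+* PadicAlgCl l :=
  (algebraMap ℚ_[l] (PadicAlgCl l)).comp PadicInt.Coe.ringHom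

theorem norm_padicIntToAlgCl (x : ℤ_[l]) : ‖padicIntToAlgCl l x‖ = ‖x‖ := by
  show ‖algebraMap ℚ_[l] (PadicAlgCl l) (x : ℚ_[l])‖ = ‖x‖
  rw [← PadicAlgCl.coe_eq]
  exact PadicAlgCl.norm_extends l (x : ℚ_[l])

theorem norm_padicIntToAlgCl_le_one (x : ℤ_[l]) : ‖padicIntToAlgCl l x‖ ≤ 1 := by
  rw [norm_padicIntToAlgCl]
  exact PadicInt.norm_le_one x

theorem norm_padicIntToAlgCl_lt_one_iff (x : ℤ_[l]) :
    ‖padicIntToAlgCl l x‖ < 1 ↔ PadicInt.toZMod x = 0 := by
  rw [norm_padicIntToAlgCl, ← RingHom.mem_ker, PadicInt.ker_toZMod,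
    IsLocalRing.mem_maximalIdeal, PadicInt.mem_nonunits]

end PadicInt

/-! ### Finite order matrices have integral trace and determinant -/

section FiniteOrder

theorem isIntegral_trace_det_of_pow_eq_one {F : Type*} [Field F] [IsAlgClosed F]
    (M : Matrix (Fin 2) (Fin 2) F) {m : ℕ} (hm : 0 < m) (hM : M ^ m = 1) :
    IsIntegral ℤ M.trace ∧ IsIntegral ℤ M.det := by
  have hsplit : M.charpoly.Splits := IsAlgClosed.splits _
  have hroots : ∀ μ ∈ M.charpoly.roots, IsIntegral ℤ μ := by
    intro μ hμ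
    have hroot : M.charpoly.IsRoot μ := Polynomial.isRoot_of_mem_roots hμ
    have hspec : μ ∈ spectrum F M := Matrix.mem_spectrum_iff_isRoot_charpoly.mpr hroot
    have hpow : μ ^ m ∈ spectrum F (M ^ m) := spectrum.pow_mem_pow M m hspec
    rw [hM, spectrum.one_eq, Set.mem_singleton_iff] at hpow
    exact IsIntegral.of_pow hm (hpow ▸ isIntegral_one)
  rw [Matrix.trace_eq_sum_roots_charpoly_of_splits hsplit,
    Matrix.det_eq_prod_roots_charpoly_of_splits hsplit]
  exact ⟨IsIntegral.multiset_sum hroots, IsIntegral.multiset_prod hroots⟩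

end FiniteOrder

/-! ### The lifting lemma -/

section Final

variable (l : ℕ) [Fact l.Prime]

local notation "Qb" => AlgebraicClosure ℚ

/-- (L-final), with (L2) `exists_conj_map` carried as the hypothesis `hL2`. -/
theorem exists_lift_of_conj (A : ValuationSubring Qb) (hA : A.LiesOverPrime l)
    {G : Type*} [Group G] [Finite G]
    (hL2 : ∀ ι : Qb →+* PadicAlgCl l, (∀ y : PadicAlgCl l, IsAlgebraic ℚ y → y ∈ ι.range) →
      ∀ ρ : G →* GL (Fin 2) (PadicAlgCl l),
        ∃ (ρ' : G →* GL (Fin 2) Qb) (P : GL (Fin 2) (PadicAlgCl l)),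
          ∀ g, Matrix.GeneralLinearGroup.map ι (ρ' g) = P * ρ g * P⁻¹)
    (hG : ¬ l ∣ Nat.card G) (r : G →* GL (Fin 2) (ZMod l)) :
    ∃ rho : G →* GL (Fin 2) Qb, ∀ g : G,
      IsIntegral ℤ (Matrix.trace (rho g).1) ∧ IsIntegral ℤ (Matrix.det (rho g).1) ∧
      ∀ n : ℤ, ((n : ZMod l) = Matrix.trace (r g).1 →
          Matrix.trace (rho g).1 - (n : Qb) ∈ A.nonunits) ∧
        ((n : ZMod l) = Matrix.det (r g).1 → Matrix.det (rho g).1 - (n : Qb) ∈ A.nonunits) := by
  obtain ⟨ι, hι, -, hιn⟩ := exists_embedding_padicAlgCl l A hA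
  obtain ⟨ρ₀, hρ₀⟩ := exists_padic_lift hG r
  obtain ⟨ρ', P, hP⟩ :=
    hL2 ι hι ((Matrix.GeneralLinearGroup.map (padicIntToAlgCl l)).comp ρ₀)
  refine ⟨ρ', fun g => ?_⟩
  -- the matrix identity
  have hmat : (ρ' g).1.map ι = P.1 * (ρ₀ g).1.map (padicIntToAlgCl l) * (P⁻¹).1 := by
    have h := congrArg Units.val (hP g)
    exact h
  have htr : ι (Matrix.trace (ρ' g).1) = padicIntToAlgCl l (Matrix.trace (ρ₀ g).1) := by
    rw [AddMonoidHom.map_trace, AddMonoidHom.map_trace, hmat]
    exact Matrix.trace_units_conj P _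
  have hdet : ι (Matrix.det (ρ' g).1) = padicIntToAlgCl l (Matrix.det (ρ₀ g).1) := by
    rw [RingHom.map_det, RingHom.map_det]
    show Matrix.det ((ρ' g).1.map ι) = Matrix.det ((ρ₀ g).1.map (padicIntToAlgCl l))
    rw [hmat]
    exact Matrix.det_units_conj P _
  have hred : (ρ₀ g).1.map PadicInt.toZMod = (r g).1 := by
    ext i j
    exact hρ₀ g i j
  have htr0 : PadicInt.toZMod (Matrix.trace (ρ₀ g).1) = Matrix.trace (r g).1 := by
    rw [AddMonoidHom.map_trace, hred]
  have hdet0 : PadicInt.toZMod (Matrix.det (ρ₀ g).1) = Matrix.det (r g).1 := by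
    rw [RingHom.map_det]
    show Matrix.det ((ρ₀ g).1.map PadicInt.toZMod) = _
    rw [hred]
  -- integrality
  have hcard : 0 < Nat.card G := Nat.card_pos
  have hpow : (ρ' g).1 ^ Nat.card G = 1 := by
    rw [← Units.val_pow_eq_pow_val, ← map_pow, pow_card_eq_one', map_one, Units.val_one]
  obtain ⟨hi1, hi2⟩ := isIntegral_trace_det_of_pow_eq_one (ρ' g).1 hcard hpow
  refine ⟨hi1, hi2, fun n => ⟨fun hn => ?_, fun hn => ?_⟩⟩
  · rw [hιn, map_sub, map_intCast, htr, ← map_intCast (padicIntToAlgCl l), ← map_sub,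
      norm_padicIntToAlgCl_lt_one_iff, map_sub, map_intCast, htr0, hn, sub_self]
  · rw [hιn, map_sub, map_intCast, hdet, ← map_intCast (padicIntToAlgCl l), ← map_sub,
      norm_padicIntToAlgCl_lt_one_iff, map_sub, map_intCast, hdet0, hn, sub_self]

/-- **(L)** The lifting lemma of Deligne–Serre: a representation `r : G → GL₂(𝔽_l)` of a finite
group of order prime to `l` lifts to `ρ : G → GL₂(ℚ̄)` whose traces and determinants are algebraic
integers, congruent to those of `r` modulo the prescribed valuation subring `A` over `l`. -/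
theorem exists_lift (A : ValuationSubring Qb) (hA : A.LiesOverPrime l)
    {G : Type*} [Group G] [Finite G] (hG : ¬ l ∣ Nat.card G) (r : G →* GL (Fin 2) (ZMod l)) :
    ∃ rho : G →* GL (Fin 2) Qb, ∀ g : G,
      IsIntegral ℤ (Matrix.trace (rho g).1) ∧ IsIntegral ℤ (Matrix.det (rho g).1) ∧
      ∀ n : ℤ, ((n : ZMod l) = Matrix.trace (r g).1 →
          Matrix.trace (rho g).1 - (n : Qb) ∈ A.nonunits) ∧
        ((n : ZMod l) = Matrix.det (r g).1 → Matrix.det (rho g).1 - (n : Qb) ∈ A.nonunits) :=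
  exists_lift_of_conj l A hA (fun ι hι ρ => exists_conj_map ι hι ρ) hG r

end Final

end Fermat.Agent.S48x.Lift
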