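/-
P-S48 (Deligne–Serre), block (R): realisability over a finite field `k` of a weakly
semisimple two-dimensional representation over an extension field `K ⊇ k`
all of whose traces and determinants lie in `k`.  Mathlib only.
-/
import Mathlib

set_option autoImplicit false

namespace Fermat.Agent.S48x.Lift.Realise

open Matrix

/-- Weak semisimplicity: a common eigenvector has an independent common eigenvector. -/
def WeakSS {F : Type*} [Field F] {G : Type*} [Group G] (r : G →* GL (Fin 2) F) : Prop :=
  ∀ v : Fin 2 → F, v ≠ 0 →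
    (∀ g, ∃ c : F, (r g : Matrix (Fin 2) (Fin 2) F).mulVec v = c • v) →
    ∃ w : Fin 2 → F, (∀ c : F, w ≠ c • v) ∧
      ∀ g, ∃ c : F, (r g : Matrix (Fin 2) (Fin 2) F).mulVec w = c • w

section TwoByTwo

variable {K : Type*} [Field K]

theorem cayley2 (x : Matrix (Fin 2) (Fin 2) K) :
    x * x = x.trace • x - x.det • (1 : Matrix (Fin 2) (Fin 2) K) := by
  ext i j
  fin_cases i <;> fin_cases j <;>
    simp [Matrix.mul_apply, Fin.sum_univ_two, Matrix.trace_fin_two, Matrix.det_fin_two] <;> ring

theorem polar2 (x y : Matrix (Fin 2) (Fin 2) K) :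
    y * x = x.trace • y + y.trace • x + ((x * y).trace - x.trace * y.trace) •
      (1 : Matrix (Fin 2) (Fin 2) K) - x * y := by
  ext i j
  fin_cases i <;> fin_cases j <;>
    simp [Matrix.mul_apply, Fin.sum_univ_two, Matrix.trace_fin_two] <;> ring

/-- the matrix with columns `v`, `w`. -/
def colMat (v w : Fin 2 → K) : Matrix (Fin 2) (Fin 2) K := !![v 0, w 0; v 1, w 1]

theorem det_colMat (v w : Fin 2 → K) : (colMat v w).det = v 0 * w 1 - w 0 * v 1 := by
  simp [colMat, Matrix.det_fin_two_of]

theorem mul_colMat (X : Matrix (Fin 2) (Fin 2) K) (v w : Fin 2 → K) :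
    X * colMat v w = colMat (X.mulVec v) (X.mulVec w) := by
  ext i j
  fin_cases i <;> fin_cases j <;>
    simp [colMat, Matrix.mul_apply, Matrix.mulVec, dotProduct, Fin.sum_univ_two]

theorem colMat_mul (v w : Fin 2 → K) (M : Matrix (Fin 2) (Fin 2) K) :
    colMat v w * M = colMat (M 0 0 • v + M 1 0 • w) (M 0 1 • v + M 1 1 • w) := by
  ext i j
  fin_cases i <;> fin_cases j <;>
    simp [colMat, Matrix.mul_apply, Fin.sum_univ_two] <;> ring

theorem indep_det_ne_zero {v w : Fin 2 → K} (hv : v ≠ 0) (hw : ∀ c : K, w ≠ c • v) :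
    v 0 * w 1 - w 0 * v 1 ≠ 0 := by
  intro h
  by_cases h0 : v 0 = 0
  · have h1 : v 1 ≠ 0 := by
      intro h1; apply hv; ext i; fin_cases i <;> simp [h0, h1]
    have hw0 : w 0 = 0 := by
      rw [h0] at h
      have : w 0 * v 1 = 0 := by linear_combination -h
      rcases mul_eq_zero.mp this with h' | h'
      · exact h'
      · exact absurd h' h1
    apply hw (w 1 / v 1)
    ext i; fin_cases i
    · simp [h0, hw0]
    · simp [h1]
  · apply hw (w 0 / v 0)
    ext i; fin_cases i
    · simp [h0]
    · simp only [Fin.mk_one, Fin.isValue, Pi.smul_apply, smul_eq_mul]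
      field_simp
      linear_combination h

theorem mul_left_cancel_of_det_ne_zero {P A B : Matrix (Fin 2) (Fin 2) K} (hP : P.det ≠ 0)
    (h : P * A = P * B) : A = B := by
  have hu : IsUnit P.det := isUnit_iff_ne_zero.mpr hP
  calc A = P⁻¹ * (P * A) := by rw [← Matrix.mul_assoc, Matrix.nonsing_inv_mul P hu, Matrix.one_mul]
    _ = P⁻¹ * (P * B) := by rw [h]
    _ = B := by rw [← Matrix.mul_assoc, Matrix.nonsing_inv_mul P hu, Matrix.one_mul]

theorem mul_right_cancel_of_det_ne_zero {P A B : Matrix (Fin 2) (Fin 2) K} (hP : P.det ≠ 0)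
    (h : A * P = B * P) : A = B := by
  have hu : IsUnit P.det := isUnit_iff_ne_zero.mpr hP
  calc A = (A * P) * P⁻¹ := by rw [Matrix.mul_assoc, Matrix.mul_nonsing_inv P hu, Matrix.mul_one]
    _ = (B * P) * P⁻¹ := by rw [h]
    _ = B := by rw [Matrix.mul_assoc, Matrix.mul_nonsing_inv P hu, Matrix.mul_one]


theorem colMat_zero : colMat (0 : Fin 2 → K) 0 = 0 := by
  ext i j
  fin_cases i <;> fin_cases j <;> simp [colMat]

/-- the kernel of a nonzero `2 × 2` matrix is at most one-dimensional. -/
theorem ker_dim_le_one {N : Matrix (Fin 2) (Fin 2) K} (hN : N ≠ 0) {v v' : Fin 2 → K}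
    (hv : v ≠ 0) (h : N.mulVec v = 0) (h' : N.mulVec v' = 0) : ∃ c : K, v' = c • v := by
  by_contra hcon
  push Not at hcon
  have hdet : (colMat v v').det ≠ 0 := by
    rw [det_colMat]; exact indep_det_ne_zero hv hcon
  apply hN
  apply mul_right_cancel_of_det_ne_zero hdet
  rw [mul_colMat, h, h', colMat_zero, Matrix.zero_mul]

theorem exists_eq_add_smul_of_commute {x y : Matrix (Fin 2) (Fin 2) K}
    (hx : ∀ c : K, x ≠ c • (1 : Matrix (Fin 2) (Fin 2) K)) (h : x * y = y * x) :
    ∃ a b : K, y = a • (1 : Matrix (Fin 2) (Fin 2) K) + b • x := by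
  have e00 := congrFun (congrFun h 0) 0
  have e01 := congrFun (congrFun h 0) 1
  have e10 := congrFun (congrFun h 1) 0
  have e11 := congrFun (congrFun h 1) 1
  simp only [Matrix.mul_apply, Fin.sum_univ_two, Fin.isValue] at e00 e01 e10 e11
  by_cases hq : x 0 1 = 0
  · by_cases hr : x 1 0 = 0
    · have hps : x 1 1 - x 0 0 ≠ 0 := by
        intro hps
        apply hx (x 0 0)
        ext i j
        fin_cases i <;> fin_cases j <;> simp [hq, hr]
        linear_combination hps
      have hy01 : y 0 1 = 0 := by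
        rw [hq] at e01
        have : y 0 1 * (x 1 1 - x 0 0) = 0 := by linear_combination -e01
        rcases mul_eq_zero.mp this with h' | h'
        · exact h'
        · exact absurd h' hps
      have hy10 : y 1 0 = 0 := by
        rw [hr] at e10
        have : y 1 0 * (x 1 1 - x 0 0) = 0 := by linear_combination e10
        rcases mul_eq_zero.mp this with h' | h'
        · exact h'
        · exact absurd h' hps
      refine ⟨y 0 0 - (y 1 1 - y 0 0) / (x 1 1 - x 0 0) * x 0 0,
        (y 1 1 - y 0 0) / (x 1 1 - x 0 0), ?_⟩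
      ext i j
      fin_cases i <;> fin_cases j <;> simp [hq, hr, hy01, hy10]
      field_simp
      ring
    · refine ⟨y 0 0 - y 1 0 / x 1 0 * x 0 0, y 1 0 / x 1 0, ?_⟩
      ext i j
      fin_cases i <;> fin_cases j <;> simp
      · field_simp
        linear_combination -e00
      · field_simp
      · field_simp
        linear_combination -e10
  · refine ⟨y 0 0 - y 0 1 / x 0 1 * x 0 0, y 0 1 / x 0 1, ?_⟩
    ext i j
    fin_cases i <;> fin_cases j <;> simp
    · field_simp
    · field_simp
      linear_combination e00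
    · field_simp
      linear_combination e01

theorem exists_cyclic {x : Matrix (Fin 2) (Fin 2) K}
    (hx : ∀ c : K, x ≠ c • (1 : Matrix (Fin 2) (Fin 2) K)) :
    ∃ v : Fin 2 → K, v 0 * (x.mulVec v) 1 - (x.mulVec v) 0 * v 1 ≠ 0 := by
  by_cases hr : x 1 0 = 0
  · by_cases hq : x 0 1 = 0
    · refine ⟨![1, 1], ?_⟩
      simp only [Matrix.mulVec, dotProduct, Fin.sum_univ_two, Fin.isValue, Matrix.cons_val_zero,
        Matrix.cons_val_one, mul_one, one_mul, hr, hq, zero_add, add_zero]
      intro hps
      apply hx (x 0 0)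
      ext i j
      fin_cases i <;> fin_cases j <;> simp [hq, hr]
      linear_combination hps
    · refine ⟨![0, 1], ?_⟩
      simp only [Matrix.mulVec, dotProduct, Fin.sum_univ_two, Fin.isValue, Matrix.cons_val_zero,
        Matrix.cons_val_one, mul_one, mul_zero, zero_mul, zero_add, zero_sub, ne_eq, neg_eq_zero]
      exact hq
  · refine ⟨![1, 0], ?_⟩
    simp only [Matrix.mulVec, dotProduct, Fin.sum_univ_two, Fin.isValue, Matrix.cons_val_zero,
      Matrix.cons_val_one, mul_one, mul_zero, add_zero, one_mul, sub_zero, ne_eq]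
    exact hr

/-- in the basis `v, x v` the matrix `x` is the companion matrix of its characteristic
polynomial. -/
theorem mul_colMat_cyclic (x : Matrix (Fin 2) (Fin 2) K) (v : Fin 2 → K) :
    x * colMat v (x.mulVec v) = colMat v (x.mulVec v) * !![0, -x.det; 1, x.trace] := by
  ext i j
  fin_cases i <;> fin_cases j <;>
    simp [colMat, Matrix.mul_apply, Matrix.mulVec, dotProduct, Fin.sum_univ_two,
      Matrix.trace_fin_two, Matrix.det_fin_two] <;> ring

/-- a nonzero singular `2 × 2` matrix is a rank one product. -/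
theorem exists_vecMulVec {a : Matrix (Fin 2) (Fin 2) K} (ha : a ≠ 0) (hd : a.det = 0) :
    ∃ u w : Fin 2 → K, u ≠ 0 ∧ w ≠ 0 ∧ a = Matrix.vecMulVec u w := by
  rw [Matrix.det_fin_two] at hd
  by_cases h00 : a 0 0 = 0
  · by_cases h10 : a 1 0 = 0
    · -- first column zero
      refine ⟨![a 0 1, a 1 1], ![0, 1], ?_, ?_, ?_⟩
      · intro h
        apply ha
        have h1 := congrFun h 0
        have h2 := congrFun h 1
        simp at h1 h2
        ext i j
        fin_cases i <;> fin_cases j <;> simp [h00, h10, h1, h2]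
      · intro h
        have h2 := congrFun h 1
        simp at h2
      · ext i j
        fin_cases i <;> fin_cases j <;> simp [Matrix.vecMulVec_apply, h00, h10]
    · have h01 : a 0 1 = 0 := by
        rw [h00] at hd
        have : a 0 1 * a 1 0 = 0 := by linear_combination -hd
        rcases mul_eq_zero.mp this with h' | h'
        · exact h'
        · exact absurd h' h10
      refine ⟨![0, a 1 0], ![1, a 1 1 / a 1 0], ?_, ?_, ?_⟩
      · intro h
        have h2 := congrFun h 1
        simp at h2
        exact h10 h2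
      · intro h
        have h2 := congrFun h 0
        simp at h2
      · ext i j
        fin_cases i <;> fin_cases j <;> simp [Matrix.vecMulVec_apply, h00, h01]
        field_simp
  · refine ⟨![a 0 0, a 1 0], ![1, a 0 1 / a 0 0], ?_, ?_, ?_⟩
    · intro h
      have h2 := congrFun h 0
      simp at h2
      exact h00 h2
    · intro h
      have h2 := congrFun h 0
      simp at h2
    · ext i j
      fin_cases i <;> fin_cases j <;> simp [Matrix.vecMulVec_apply]
      · field_simp
      · field_simp
        linear_combination hd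

end TwoByTwo

section FiniteField

variable {k : Type*} [Field k] [Finite k]

theorem exists_sqrt_of_disc_zero (t0 d0 : k) (h : t0 ^ 2 = 4 * d0) :
    ∃ c0 : k, t0 = 2 * c0 ∧ d0 = c0 ^ 2 := by
  by_cases h2 : (2 : k) = 0
  · have : CharP k 2 := CharTwo.of_one_ne_zero_of_two_eq_zero one_ne_zero h2
    obtain ⟨c0, hc0⟩ := isSquare_of_charTwo' d0
    refine ⟨c0, ?_, by rw [hc0]; ring⟩
    have h4 : (4 : k) = 0 := by linear_combination 2 * h2
    have h0 : t0 ^ 2 = 0 := by rw [h, h4, zero_mul]
    rw [h2, zero_mul]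
    exact (pow_eq_zero_iff two_ne_zero).mp h0
  · refine ⟨t0 / 2, by field_simp, ?_⟩
    field_simp
    linear_combination -h

variable {K : Type*} [Field K] [Algebra k K]

theorem mem_range_of_two_mul_of_sq {c : K} {t0 d0 : k} (ht : algebraMap k K t0 = 2 * c)
    (hd : algebraMap k K d0 = c ^ 2) : ∃ c0 : k, algebraMap k K c0 = c := by
  have hinj := (algebraMap k K).injective
  have h : t0 ^ 2 = 4 * d0 := by
    apply hinj
    simp only [map_pow, map_mul, map_ofNat, ht, hd]
    ring
  obtain ⟨c0, h1, h2⟩ := exists_sqrt_of_disc_zero t0 d0 h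
  refine ⟨c0, ?_⟩
  have h1' : 2 * algebraMap k K c0 = 2 * c := by
    rw [← ht, h1, map_mul, map_ofNat]
  have h2' : algebraMap k K c0 ^ 2 = c ^ 2 := by
    rw [← hd, h2, map_pow]
  have : (c - algebraMap k K c0) ^ 2 = 0 := by
    linear_combination (-1 : K) * h2' + (algebraMap k K c0) * h1'
  have := (pow_eq_zero_iff two_ne_zero).mp this
  exact (sub_eq_zero.mp this).symm

end FiniteField

section Singular

variable {k : Type*} [Field k] [Finite k] {K : Type*} [Field K] [Algebra k K]

omit [Finite k] in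
theorem cayley2_k {x : Matrix (Fin 2) (Fin 2) K} {t d : k} (ht : algebraMap k K t = x.trace)
    (hd : algebraMap k K d = x.det) :
    x * x = t • x - d • (1 : Matrix (Fin 2) (Fin 2) K) := by
  rw [cayley2 x, ← ht, ← hd, algebraMap_smul, algebraMap_smul]

omit [Finite k] in
theorem polar2_k {x y : Matrix (Fin 2) (Fin 2) K} {tx ty txy : k}
    (htx : algebraMap k K tx = x.trace) (hty : algebraMap k K ty = y.trace)
    (htxy : algebraMap k K txy = (x * y).trace) :
    y * x = tx • y + ty • x + (txy - tx * ty) • (1 : Matrix (Fin 2) (Fin 2) K) - x * y := by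
  rw [polar2 x y, ← htx, ← hty, ← htxy, ← map_mul, ← map_sub, algebraMap_smul, algebraMap_smul,
    algebraMap_smul]

/-- A finite non-commutative ring of `2 × 2` matrices contains a nonzero singular matrix
(little Wedderburn). -/
theorem exists_singular {x y : Matrix (Fin 2) (Fin 2) K} {tx dx ty dy txy : k}
    (htx : algebraMap k K tx = x.trace) (hdx : algebraMap k K dx = x.det)
    (hty : algebraMap k K ty = y.trace) (hdy : algebraMap k K dy = y.det)
    (htxy : algebraMap k K txy = (x * y).trace) (hxy : x * y ≠ y * x) :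
    ∃ a ∈ Submodule.span k ({1, x, y, x * y} : Set (Matrix (Fin 2) (Fin 2) K)),
      a ≠ 0 ∧ a.det = 0 := by
  set A0 := Submodule.span k ({1, x, y, x * y} : Set (Matrix (Fin 2) (Fin 2) K)) with hA0
  have h1 : (1 : Matrix (Fin 2) (Fin 2) K) ∈ A0 := Submodule.subset_span (by simp)
  have hx : x ∈ A0 := Submodule.subset_span (by simp)
  have hy : y ∈ A0 := Submodule.subset_span (by simp)
  have hxym : x * y ∈ A0 := Submodule.subset_span (by simp)
  have hxx : x * x ∈ A0 := by
    rw [cayley2_k htx hdx]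
    exact A0.sub_mem (A0.smul_mem _ hx) (A0.smul_mem _ h1)
  have hyy : y * y ∈ A0 := by
    rw [cayley2_k hty hdy]
    exact A0.sub_mem (A0.smul_mem _ hy) (A0.smul_mem _ h1)
  have hyx : y * x ∈ A0 := by
    rw [polar2_k htx hty htxy]
    exact A0.sub_mem (A0.add_mem (A0.add_mem (A0.smul_mem _ hy) (A0.smul_mem _ hx))
      (A0.smul_mem _ h1)) hxym
  -- left multiplication by `x`
  have Lx : ∀ b ∈ A0, x * b ∈ A0 := by
    intro b hb
    induction hb using Submodule.span_induction with
    | mem b h =>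
      simp only [Set.mem_insert_iff, Set.mem_singleton_iff] at h
      rcases h with rfl | rfl | rfl | rfl
      · rw [mul_one]; exact hx
      · exact hxx
      · exact hxym
      · rw [← mul_assoc, cayley2_k htx hdx, sub_mul, smul_mul_assoc, smul_mul_assoc, one_mul]
        exact A0.sub_mem (A0.smul_mem _ hxym) (A0.smul_mem _ hy)
    | zero => rw [mul_zero]; exact A0.zero_mem
    | add a b _ _ ha hb => rw [mul_add]; exact A0.add_mem ha hb
    | smul c a _ ha => rw [mul_smul_comm]; exact A0.smul_mem _ ha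
  have Ly : ∀ b ∈ A0, y * b ∈ A0 := by
    intro b hb
    induction hb using Submodule.span_induction with
    | mem b h =>
      simp only [Set.mem_insert_iff, Set.mem_singleton_iff] at h
      rcases h with rfl | rfl | rfl | rfl
      · rw [mul_one]; exact hy
      · exact hyx
      · exact hyy
      · rw [← mul_assoc, polar2_k htx hty htxy, sub_mul, add_mul, add_mul, smul_mul_assoc,
          smul_mul_assoc, smul_mul_assoc, one_mul, mul_assoc]
        exact A0.sub_mem (A0.add_mem (A0.add_mem (A0.smul_mem _ hyy) (A0.smul_mem _ hxym))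
          (A0.smul_mem _ hy)) (Lx _ hyy)
    | zero => rw [mul_zero]; exact A0.zero_mem
    | add a b _ _ ha hb => rw [mul_add]; exact A0.add_mem ha hb
    | smul c a _ ha => rw [mul_smul_comm]; exact A0.smul_mem _ ha
  have hmul : ∀ a b, a ∈ A0 → b ∈ A0 → a * b ∈ A0 := by
    intro a b ha hb
    induction ha using Submodule.span_induction with
    | mem a h =>
      simp only [Set.mem_insert_iff, Set.mem_singleton_iff] at h
      rcases h with rfl | rfl | rfl | rfl
      · rw [one_mul]; exact hb
      · exact Lx _ hb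
      · exact Ly _ hb
      · rw [mul_assoc]; exact Lx _ (Ly _ hb)
    | zero => rw [zero_mul]; exact A0.zero_mem
    | add a a' _ _ ha ha' => rw [add_mul]; exact A0.add_mem ha ha'
    | smul c a _ ha => rw [smul_mul_assoc]; exact A0.smul_mem _ ha
  by_contra hcon
  push Not at hcon
  let R := A0.toSubalgebra h1 hmul
  have hmemR : ∀ z : Matrix (Fin 2) (Fin 2) K, z ∈ R ↔ z ∈ A0 := fun z => Iff.rfl
  have : Module.Finite k A0 :=
    Module.Finite.span_of_finite k (Set.toFinite _)
  have : Finite A0 := Module.finite_of_finite k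
  have : Finite R :=
    Finite.of_injective (fun z : R => (⟨z.1, (hmemR _).1 z.2⟩ : A0)) (by
      intro a b h
      apply Subtype.ext
      exact congrArg (fun z : A0 => (z : Matrix (Fin 2) (Fin 2) K)) h)
  have : Nontrivial R := ⟨⟨0, 1, by
    intro h
    have := congrArg (fun z : R => (z : Matrix (Fin 2) (Fin 2) K)) h
    simp at this⟩⟩
  have : NoZeroDivisors R := ⟨by
    intro a b hab
    by_cases ha : a = 0
    · exact Or.inl ha
    · right
      have ha' : (a : Matrix (Fin 2) (Fin 2) K) ≠ 0 := fun h => ha (Subtype.ext h)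
      have hdet := hcon a.1 ((hmemR _).1 a.2) ha'
      have hab' : (a : Matrix (Fin 2) (Fin 2) K) * b = a * 0 := by
        rw [mul_zero]
        exact congrArg (fun z : R => (z : Matrix (Fin 2) (Fin 2) K)) hab
      exact Subtype.ext (mul_left_cancel_of_det_ne_zero hdet hab')⟩
  have : IsDomain R := NoZeroDivisors.to_isDomain R
  have hfield := Finite.isDomain_to_isField R
  have hc := hfield.mul_comm ⟨x, (hmemR _).2 hx⟩ ⟨y, (hmemR _).2 hy⟩
  exact hxy (congrArg (fun z : R => (z : Matrix (Fin 2) (Fin 2) K)) hc)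

end Singular

section Main

variable (k : Type*) [Field k] [Finite k] {K : Type*} [Field K] [Algebra k K]
variable {G : Type*} [Group G]

/-- the matrix of `r g`. -/
def rho (r : G →* GL (Fin 2) K) (g : G) : Matrix (Fin 2) (Fin 2) K := (r g : GL (Fin 2) K)

omit [Finite k] in
theorem rho_one (r : G →* GL (Fin 2) K) : rho r 1 = 1 := by simp [rho]

omit [Finite k] in
theorem rho_mul (r : G →* GL (Fin 2) K) (g h : G) : rho r (g * h) = rho r g * rho r h := by
  simp [rho]

/-- `P` conjugates `r` into matrices with entries in `k`. -/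
def IsForm (r : G →* GL (Fin 2) K) (P : Matrix (Fin 2) (Fin 2) K) : Prop :=
  P.det ≠ 0 ∧ ∀ g, ∃ m : Matrix (Fin 2) (Fin 2) k,
    rho r g * P = P * (algebraMap k K).mapMatrix m

variable {k}

/-- case (i): all matrices scalar. -/
theorem isForm_of_scalar (r : G →* GL (Fin 2) K)
    (htr : ∀ g, ∃ a : k, algebraMap k K a = (rho r g).trace)
    (hdet : ∀ g, ∃ a : k, algebraMap k K a = (rho r g).det)
    (hsc : ∀ g, ∃ c : K, rho r g = c • (1 : Matrix (Fin 2) (Fin 2) K)) :
    IsForm k r 1 := by
  refine ⟨by simp, fun g => ?_⟩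
  obtain ⟨c, hc⟩ := hsc g
  obtain ⟨t0, ht0⟩ := htr g
  obtain ⟨d0, hd0⟩ := hdet g
  have htr' : (rho r g).trace = 2 * c := by
    rw [hc, Matrix.trace_smul, Matrix.trace_one, Fintype.card_fin, smul_eq_mul]
    push_cast
    ring
  have hdet' : (rho r g).det = c ^ 2 := by
    rw [hc, Matrix.det_smul, Matrix.det_one, Fintype.card_fin, mul_one]
  obtain ⟨c0, hc0⟩ := mem_range_of_two_mul_of_sq (ht0.trans htr') (hd0.trans hdet')
  refine ⟨c0 • 1, ?_⟩
  rw [mul_one, one_mul, hc, ← hc0]
  ext i j
  fin_cases i <;> fin_cases j <;> simp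

omit [Finite k] in
/-- case (ii): commutative image, a non-scalar element with separable characteristic
polynomial. -/
theorem isForm_of_commute (r : G →* GL (Fin 2) K)
    (htr : ∀ g, ∃ a : k, algebraMap k K a = (rho r g).trace)
    (hcomm : ∀ g h, rho r g * rho r h = rho r h * rho r g) {g0 : G}
    (hns : ∀ c : K, rho r g0 ≠ c • (1 : Matrix (Fin 2) (Fin 2) K)) {t0 d0 : k}
    (ht0 : algebraMap k K t0 = (rho r g0).trace) (hd0 : algebraMap k K d0 = (rho r g0).det)
    (hdisc : t0 ^ 2 - 4 * d0 ≠ 0) : ∃ P, IsForm k r P := by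
  obtain ⟨v, hv⟩ := exists_cyclic hns
  refine ⟨colMat v ((rho r g0).mulVec v), ?_, fun g => ?_⟩
  · rw [det_colMat]; exact hv
  · obtain ⟨a, b, hab⟩ := exists_eq_add_smul_of_commute hns (hcomm g0 g)
    obtain ⟨τ1, hτ1⟩ := htr g
    obtain ⟨τ2, hτ2⟩ := htr (g * g0)
    have e1 : algebraMap k K τ1 = 2 * a + b * algebraMap k K t0 := by
      rw [hτ1, hab, ht0, Matrix.trace_add, Matrix.trace_smul, Matrix.trace_smul,
        Matrix.trace_one, Fintype.card_fin, smul_eq_mul, smul_eq_mul]
      push_cast
      ring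
    have e2 : algebraMap k K τ2 =
        a * algebraMap k K t0 + b * (algebraMap k K t0 ^ 2 - 2 * algebraMap k K d0) := by
      rw [hτ2, rho_mul, hab, add_mul, smul_mul_assoc, one_mul, smul_mul_assoc,
        cayley2 (rho r g0), ht0, hd0, Matrix.trace_add, Matrix.trace_smul, Matrix.trace_smul,
        Matrix.trace_sub, Matrix.trace_smul, Matrix.trace_smul, Matrix.trace_one,
        Fintype.card_fin]
      simp only [smul_eq_mul]
      push_cast
      ring
    have hΔ : algebraMap k K (t0 ^ 2 - 4 * d0) ≠ 0 := (map_ne_zero _).2 hdisc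
    have ha0 : algebraMap k K (((t0 ^ 2 - 2 * d0) * τ1 - t0 * τ2) / (t0 ^ 2 - 4 * d0)) = a := by
      rw [map_div₀, div_eq_iff hΔ]
      simp only [map_sub, map_mul, map_pow, map_ofNat, e1, e2]
      ring
    have hb0 : algebraMap k K ((2 * τ2 - t0 * τ1) / (t0 ^ 2 - 4 * d0)) = b := by
      rw [map_div₀, div_eq_iff hΔ]
      simp only [map_sub, map_mul, map_pow, map_ofNat, e1, e2]
      ring
    refine ⟨(((t0 ^ 2 - 2 * d0) * τ1 - t0 * τ2) / (t0 ^ 2 - 4 * d0)) • 1 +
      ((2 * τ2 - t0 * τ1) / (t0 ^ 2 - 4 * d0)) • !![0, -d0; 1, t0], ?_⟩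
    have hΦ : (algebraMap k K).mapMatrix
        ((((t0 ^ 2 - 2 * d0) * τ1 - t0 * τ2) / (t0 ^ 2 - 4 * d0)) • 1 +
          ((2 * τ2 - t0 * τ1) / (t0 ^ 2 - 4 * d0)) • !![0, -d0; 1, t0]) =
        a • (1 : Matrix (Fin 2) (Fin 2) K) +
          b • !![0, -(rho r g0).det; 1, (rho r g0).trace] := by
      rw [← ha0, ← hb0, ← ht0, ← hd0]
      ext i j
      fin_cases i <;> fin_cases j <;> simp
    rw [hΦ]
    conv_lhs => rw [hab]
    rw [add_mul, smul_mul_assoc, one_mul, smul_mul_assoc, mul_colMat_cyclic, mul_add,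
      mul_smul_comm, mul_one, mul_smul_comm]

/-- case (iii): a commutative weakly semisimple image contains no non-scalar element with
inseparable characteristic polynomial. -/
theorem false_of_disc_zero (r : G →* GL (Fin 2) K) (hss : WeakSS r)
    (hcomm : ∀ g h, rho r g * rho r h = rho r h * rho r g) {g0 : G}
    (hns : ∀ c : K, rho r g0 ≠ c • (1 : Matrix (Fin 2) (Fin 2) K)) {t0 d0 : k}
    (ht0 : algebraMap k K t0 = (rho r g0).trace) (hd0 : algebraMap k K d0 = (rho r g0).det)
    (hdisc : t0 ^ 2 = 4 * d0) : False := by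
  obtain ⟨c0, h1, h2⟩ := exists_sqrt_of_disc_zero t0 d0 hdisc
  set c : K := algebraMap k K c0 with hc
  set x0 := rho r g0 with hx0
  have htr' : x0 0 0 + x0 1 1 = 2 * c := by
    rw [← Matrix.trace_fin_two, ← ht0, h1, map_mul, map_ofNat]
  have hdet' : x0 0 0 * x0 1 1 - x0 0 1 * x0 1 0 = c ^ 2 := by
    rw [← Matrix.det_fin_two, ← hd0, h2, map_pow]
  set N : Matrix (Fin 2) (Fin 2) K := x0 - c • 1 with hN
  have hN0 : N ≠ 0 := by
    intro h
    apply hns c
    rw [← sub_eq_zero]
    exact h
  have hNN : N * N = 0 := by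
    ext i j
    fin_cases i <;> fin_cases j <;>
      simp [hN, Matrix.mul_apply, Fin.sum_univ_two]
    · linear_combination (x0 0 0) * htr' - hdet'
    · linear_combination (x0 0 1) * htr'
    · linear_combination (x0 1 0) * htr'
    · linear_combination (x0 1 1) * htr' - hdet'
  -- a nonzero column of `N`
  obtain ⟨j, hj⟩ : ∃ j : Fin 2, N.mulVec (Pi.single j 1) ≠ 0 := by
    by_contra hcon
    push Not at hcon
    apply hN0
    ext i j
    have := congrFun (hcon j) i
    simpa using this
  set v := N.mulVec (Pi.single j 1) with hv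
  have hNv : N.mulVec v = 0 := by
    rw [hv, Matrix.mulVec_mulVec, hNN, Matrix.zero_mulVec]
  have hNcomm : ∀ g, N * rho r g = rho r g * N := by
    intro g
    have h' : x0 * rho r g = rho r g * x0 := hcomm g0 g
    rw [hN, sub_mul, mul_sub, h']
    simp
  have hev : ∀ g, ∃ c' : K, (rho r g).mulVec v = c' • v := by
    intro g
    have : N.mulVec ((rho r g).mulVec v) = 0 := by
      rw [Matrix.mulVec_mulVec, hNcomm g, ← Matrix.mulVec_mulVec, hNv, Matrix.mulVec_zero]
    exact ker_dim_le_one hN0 hj hNv this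
  obtain ⟨w, hw, hwe⟩ := hss v hj hev
  obtain ⟨d, hd⟩ := hwe g0
  have hw0 : w ≠ 0 := by
    have := hw 0
    simpa using this
  have hNw : N.mulVec w = (d - c) • w := by
    rw [hN, Matrix.sub_mulVec, Matrix.smul_mulVec, Matrix.one_mulVec, sub_smul]
    rw [← hd]
    rfl
  have hdc : d - c = 0 := by
    have h0 : N.mulVec (N.mulVec w) = 0 := by
      rw [Matrix.mulVec_mulVec, hNN, Matrix.zero_mulVec]
    rw [hNw, Matrix.mulVec_smul, hNw, smul_smul] at h0
    rcases smul_eq_zero.mp h0 with h | h
    · exact mul_self_eq_zero.mp h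
    · exact absurd h hw0
  rw [hdc, zero_smul] at hNw
  obtain ⟨c'', hc''⟩ := ker_dim_le_one hN0 hj hNv hNw
  exact hw c'' hc''

omit [Finite k] in
/-- a weakly semisimple representation with a common eigenvector has commutative image. -/
theorem commute_of_common_eigenvector (r : G →* GL (Fin 2) K) (hss : WeakSS r)
    {v : Fin 2 → K} (hv : v ≠ 0) (hev : ∀ g, ∃ c : K, (rho r g).mulVec v = c • v) :
    ∀ g h, rho r g * rho r h = rho r h * rho r g := by
  obtain ⟨w, hw, hwe⟩ := hss v hv hev
  choose χ hχ using hev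
  choose χ' hχ' using hwe
  have hdet : (colMat v w).det ≠ 0 := by
    rw [det_colMat]; exact indep_det_ne_zero hv hw
  have key : ∀ g, rho r g * colMat v w = colMat v w * Matrix.diagonal ![χ g, χ' g] := by
    intro g
    rw [mul_colMat, colMat_mul]
    have h1 : (rho r g).mulVec v = χ g • v := hχ g
    have h2 : (rho r g).mulVec w = χ' g • w := hχ' g
    rw [h1, h2]
    congr 1 <;> simp
  intro g h
  apply mul_right_cancel_of_det_ne_zero hdet
  rw [Matrix.mul_assoc, key h, ← Matrix.mul_assoc, key g, Matrix.mul_assoc,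
    Matrix.diagonal_mul_diagonal, Matrix.mul_assoc (rho r h), key g, ← Matrix.mul_assoc, key h,
    Matrix.mul_assoc, Matrix.diagonal_mul_diagonal]
  congr 2
  ext i
  fin_cases i <;> simp [mul_comm]

omit [Finite k] in
/-- the entries of `Q z P` are traces of products with the rank one matrix `u wᵀ`. -/
theorem entry_eq_trace (u w : Fin 2 → K) (Y X z : Matrix (Fin 2) (Fin 2) K) :
    Matrix.vecMul w Y ⬝ᵥ z.mulVec (X.mulVec u) = (Y * z * X * Matrix.vecMulVec u w).trace := by
  rw [Matrix.mul_vecMulVec, Matrix.trace_vecMulVec, ← Matrix.mulVec_mulVec,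
    ← Matrix.mulVec_mulVec, dotProduct_comm (Y.mulVec (z.mulVec (X.mulVec u))) w]
  simp only [Matrix.dotProduct_mulVec]

/-- case (B2): non-commutative image without common eigenvector. -/
theorem isForm_of_not_commute (r : G →* GL (Fin 2) K)
    (htr : ∀ g, ∃ a : k, algebraMap k K a = (rho r g).trace)
    (hdet : ∀ g, ∃ a : k, algebraMap k K a = (rho r g).det) {g1 g2 : G}
    (hnc : rho r g1 * rho r g2 ≠ rho r g2 * rho r g1)
    (hne : ¬ ∃ v : Fin 2 → K, v ≠ 0 ∧ ∀ g, ∃ c : K, (rho r g).mulVec v = c • v) :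
    ∃ P, IsForm k r P := by
  classical
  -- the `k`-span of the image
  set A : Submodule k (Matrix (Fin 2) (Fin 2) K) := Submodule.span k (Set.range (rho r)) with hA
  have hAr : ∀ g, rho r g ∈ A := fun g => Submodule.subset_span ⟨g, rfl⟩
  have hA1 : (1 : Matrix (Fin 2) (Fin 2) K) ∈ A := by
    rw [← rho_one r]; exact hAr 1
  have hAmul : ∀ a b, a ∈ A → b ∈ A → a * b ∈ A := by
    intro a b ha hb
    have h := Submodule.mul_mem_mul ha hb
    rw [hA, Submodule.span_mul_span] at h
    refine Submodule.span_mono ?_ h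
    rintro _ ⟨_, ⟨g, rfl⟩, _, ⟨h, rfl⟩, rfl⟩
    exact ⟨g * h, rho_mul r g h⟩
  have hAtr : ∀ a ∈ A, ∃ c : k, algebraMap k K c = a.trace := by
    intro a ha
    induction ha using Submodule.span_induction with
    | mem a h =>
      obtain ⟨g, rfl⟩ := h
      exact htr g
    | zero => exact ⟨0, by simp⟩
    | add a b _ _ ha hb =>
      obtain ⟨ca, hca⟩ := ha
      obtain ⟨cb, hcb⟩ := hb
      exact ⟨ca + cb, by rw [map_add, hca, hcb, Matrix.trace_add]⟩
    | smul c a _ ha =>
      obtain ⟨ca, hca⟩ := ha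
      refine ⟨c * ca, ?_⟩
      rw [map_mul, hca, Matrix.trace_smul, Algebra.smul_def]
  -- a nonzero singular element
  obtain ⟨tx, htx⟩ := htr g1
  obtain ⟨dx, hdx⟩ := hdet g1
  obtain ⟨ty, hty⟩ := htr g2
  obtain ⟨dy, hdy⟩ := hdet g2
  obtain ⟨txy, htxy⟩ := htr (g1 * g2)
  rw [rho_mul] at htxy
  obtain ⟨a, haA0, ha0, hadet⟩ := exists_singular htx hdx hty hdy htxy hnc
  have haA : a ∈ A := by
    refine (Submodule.span_le.mpr ?_) haA0
    intro z hz
    simp only [Set.mem_insert_iff, Set.mem_singleton_iff] at hz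
    rcases hz with rfl | rfl | rfl | rfl
    · exact hA1
    · exact hAr g1
    · exact hAr g2
    · exact hAmul _ _ (hAr g1) (hAr g2)
  obtain ⟨u, w, hu, hw, rfl⟩ := exists_vecMulVec ha0 hadet
  -- a second column
  obtain ⟨g', hg'⟩ : ∃ g', (colMat u ((rho r g').mulVec u)).det ≠ 0 := by
    by_contra hcon
    push Not at hcon
    apply hne
    refine ⟨u, hu, fun g => ?_⟩
    by_contra hc
    push Not at hc
    apply indep_det_ne_zero hu hc
    rw [← det_colMat]
    exact hcon g
  -- a second row
  obtain ⟨g'', hg''⟩ : ∃ g'', (colMat w (Matrix.vecMul w (rho r g''))).det ≠ 0 := by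
    by_contra hcon
    push Not at hcon
    have hrow : ∀ g, ∃ c : K, Matrix.vecMul w (rho r g) = c • w := by
      intro g
      by_contra hc
      push Not at hc
      apply indep_det_ne_zero hw hc
      rw [← det_colMat]
      exact hcon g
    apply hne
    have hn : (![w 1, -w 0] : Fin 2 → K) ≠ 0 := by
      intro h
      apply hw
      have h0 := congrFun h 0
      have h1 := congrFun h 1
      simp at h0 h1
      ext i
      fin_cases i
      · simpa using h1
      · simpa using h0
    refine ⟨![w 1, -w 0], hn, fun g => ?_⟩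
    obtain ⟨c, hc⟩ := hrow g
    have e0 := congrFun hc 0
    have e1 := congrFun hc 1
    simp only [Matrix.vecMul, dotProduct, Fin.sum_univ_two, Fin.isValue, Pi.smul_apply,
      smul_eq_mul] at e0 e1
    have hNN : (!![w 0, w 1; 0, 0] : Matrix (Fin 2) (Fin 2) K) ≠ 0 := by
      intro h
      apply hw
      have h0 := congrFun (congrFun h 0) 0
      have h1 := congrFun (congrFun h 0) 1
      simp at h0 h1
      ext i
      fin_cases i
      · simpa using h0
      · simpa using h1
    refine ker_dim_le_one hNN hn ?_ ?_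
    · ext i
      fin_cases i <;> simp [Matrix.mulVec, dotProduct, Fin.sum_univ_two]
      ring
    · ext i
      fin_cases i <;> simp [Matrix.mulVec, dotProduct, Fin.sum_univ_two]
      linear_combination (w 1) * e0 - (w 0) * e1
  -- the two matrices
  set P := colMat u ((rho r g').mulVec u) with hP
  set Q := (colMat w (Matrix.vecMul w (rho r g'')))ᵀ with hQ
  have hQdet : Q.det ≠ 0 := by rw [hQ, Matrix.det_transpose]; exact hg''
  -- entries of `Q z P` lie in `k` for `z ∈ A`
  have hentry : ∀ z ∈ A, ∀ i j, ∃ c : k, algebraMap k K c = (Q * z * P) i j := by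
    intro z hz i j
    have hY : ∀ i : Fin 2, (![1, rho r g''] : Fin 2 → Matrix (Fin 2) (Fin 2) K) i ∈ A := by
      intro i; fin_cases i
      · exact hA1
      · exact hAr g''
    have hX : ∀ j : Fin 2, (![1, rho r g'] : Fin 2 → Matrix (Fin 2) (Fin 2) K) j ∈ A := by
      intro j; fin_cases j
      · exact hA1
      · exact hAr g'
    have hmem : (![1, rho r g''] : Fin 2 → Matrix (Fin 2) (Fin 2) K) i * z *
        (![1, rho r g'] : Fin 2 → Matrix (Fin 2) (Fin 2) K) j * Matrix.vecMulVec u w ∈ A :=
      hAmul _ _ (hAmul _ _ (hAmul _ _ (hY i) hz) (hX j)) haA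
    obtain ⟨c, hc⟩ := hAtr _ hmem
    refine ⟨c, ?_⟩
    rw [hc, ← entry_eq_trace]
    fin_cases i <;> fin_cases j <;>
      simp [hP, hQ, colMat, Matrix.mul_apply, Matrix.mulVec, Matrix.vecMul, dotProduct,
        Fin.sum_univ_two] <;> ring
  have hmat : ∀ z ∈ A, ∃ n : Matrix (Fin 2) (Fin 2) k,
      (algebraMap k K).mapMatrix n = Q * z * P := by
    intro z hz
    choose c hc using hentry z hz
    refine ⟨Matrix.of c, ?_⟩
    ext i j
    simp [hc]
  obtain ⟨Φ0, hΦ0⟩ := hmat 1 hA1
  rw [Matrix.mul_one] at hΦ0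
  have hΦ0det : Φ0.det ≠ 0 := by
    intro h
    have : (Q * P).det = 0 := by
      rw [← hΦ0, ← RingHom.map_det, h, map_zero]
    rw [Matrix.det_mul] at this
    rcases mul_eq_zero.mp this with h' | h'
    · exact hQdet h'
    · exact hg' h'
  refine ⟨P, hg', fun g => ?_⟩
  obtain ⟨Ng, hNg⟩ := hmat (rho r g) (hAr g)
  refine ⟨Φ0⁻¹ * Ng, ?_⟩
  apply mul_left_cancel_of_det_ne_zero hQdet
  rw [← Matrix.mul_assoc, ← hNg, ← Matrix.mul_assoc, ← hΦ0, ← map_mul, ← Matrix.mul_assoc,
    Matrix.mul_nonsing_inv Φ0 (isUnit_iff_ne_zero.mpr hΦ0det), Matrix.one_mul]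

/-- every weakly semisimple representation with traces and determinants in the finite field
`k` is conjugate over `K` to a representation with entries in `k`. -/
theorem exists_isForm (r : G →* GL (Fin 2) K) (hss : WeakSS r)
    (htr : ∀ g, ∃ a : k, algebraMap k K a = (rho r g).trace)
    (hdet : ∀ g, ∃ a : k, algebraMap k K a = (rho r g).det) : ∃ P, IsForm k r P := by
  by_cases hcomm : ∀ g h, rho r g * rho r h = rho r h * rho r g
  · by_cases hsc : ∀ g, ∃ c : K, rho r g = c • (1 : Matrix (Fin 2) (Fin 2) K)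
    · exact ⟨1, isForm_of_scalar r htr hdet hsc⟩
    · push Not at hsc
      obtain ⟨g0, hns⟩ := hsc
      obtain ⟨t0, ht0⟩ := htr g0
      obtain ⟨d0, hd0⟩ := hdet g0
      by_cases hdisc : t0 ^ 2 - 4 * d0 = 0
      · exact (false_of_disc_zero r hss hcomm hns ht0 hd0 (sub_eq_zero.mp hdisc)).elim
      · exact isForm_of_commute r htr hcomm hns ht0 hd0 hdisc
  · push Not at hcomm
    obtain ⟨g1, g2, hnc⟩ := hcomm
    by_cases hev : ∃ v : Fin 2 → K, v ≠ 0 ∧ ∀ g, ∃ c : K, (rho r g).mulVec v = c • v
    · obtain ⟨v, hv, hev⟩ := hev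
      exact (hnc (commute_of_common_eigenvector r hss hv hev g1 g2)).elim
    · exact isForm_of_not_commute r htr hdet hnc hev

omit [Finite k] in
theorem mapMatrix_injective :
    Function.Injective ((algebraMap k K).mapMatrix :
      Matrix (Fin 2) (Fin 2) k → Matrix (Fin 2) (Fin 2) K) := by
  intro a b h
  ext i j
  have := congrFun (congrFun h i) j
  simp only [RingHom.mapMatrix_apply, Matrix.map_apply] at this
  exact (algebraMap k K).injective this

omit [Finite k] in
/-- descent of weak semisimplicity: a family of matrices over `k` which is simultaneously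
diagonalisable over `K`, with one common eigenvector already defined over `k`, has a second,
independent common eigenvector over `k`. -/
theorem descent_aux {ι : Type*} (m : ι → Matrix (Fin 2) (Fin 2) k) {v : Fin 2 → k} (hv : v ≠ 0)
    (cv : ι → k) (hcv : ∀ g, (m g).mulVec v = cv g • v)
    {T : Matrix (Fin 2) (Fin 2) K} (hT : T.det ≠ 0) (b : ι → K)
    (hb : ∀ g, (algebraMap k K).mapMatrix (m g) * T =
      T * Matrix.diagonal ![algebraMap k K (cv g), b g]) :
    ∃ w0 : Fin 2 → k, (∀ c : k, w0 ≠ c • v) ∧ ∀ g, ∃ c : k, (m g).mulVec w0 = c • w0 := by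
  have hΦinj := mapMatrix_injective (k := k) (K := K)
  have hcomm : ∀ g h, m g * m h = m h * m g := by
    intro g h
    apply hΦinj
    rw [map_mul, map_mul]
    apply mul_right_cancel_of_det_ne_zero hT
    rw [Matrix.mul_assoc, hb h, ← Matrix.mul_assoc, hb g, Matrix.mul_assoc,
      Matrix.diagonal_mul_diagonal, Matrix.mul_assoc ((algebraMap k K).mapMatrix (m h)), hb g,
      ← Matrix.mul_assoc, hb h, Matrix.mul_assoc, Matrix.diagonal_mul_diagonal]
    congr 2
    ext i
    fin_cases i <;> simp [mul_comm]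
  by_cases hsc : ∀ g, m g = cv g • (1 : Matrix (Fin 2) (Fin 2) k)
  · by_cases h0 : v 0 = 0
    · refine ⟨![1, 0], ?_, fun g => ⟨cv g, ?_⟩⟩
      · intro c hc
        have := congrFun hc 0
        simp [h0] at this
      · rw [hsc g, Matrix.smul_mulVec, Matrix.one_mulVec]
    · refine ⟨![0, 1], ?_, fun g => ⟨cv g, ?_⟩⟩
      · intro c hc
        have e0 := congrFun hc 0
        have e1 := congrFun hc 1
        simp at e0 e1
        rcases e0 with h | h
        · rw [h] at e1; simp at e1
        · exact h0 h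
      · rw [hsc g, Matrix.smul_mulVec, Matrix.one_mulVec]
  · push Not at hsc
    obtain ⟨g1, hg1⟩ := hsc
    set N : Matrix (Fin 2) (Fin 2) k := m g1 - cv g1 • 1 with hN
    have hN0 : N ≠ 0 := sub_ne_zero.mpr hg1
    have hNv : N.mulVec v = 0 := by
      rw [hN, Matrix.sub_mulVec, hcv, Matrix.smul_mulVec, Matrix.one_mulVec, sub_self]
    have hdetN : N.det = 0 := by
      by_contra h
      exact hv (Matrix.eq_zero_of_mulVec_eq_zero h hNv)
    obtain ⟨u0, w1, hu0, hw1, hNeq⟩ := exists_vecMulVec hN0 hdetN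
    have hNz : ∀ z : Fin 2 → k, N.mulVec z = (w1 ⬝ᵥ z) • u0 := by
      intro z
      rw [hNeq]
      ext i
      simp [Matrix.vecMulVec_apply, Matrix.mulVec, dotProduct, Fin.sum_univ_two]
      ring
    have hNcomm : ∀ g, m g * N = N * m g := by
      intro g
      rw [hN, mul_sub, sub_mul, hcomm g g1]
      simp
    refine ⟨u0, ?_, ?_⟩
    · -- independence
      intro c hc
      have hNu0 : N.mulVec u0 = 0 := by rw [hc, Matrix.mulVec_smul, hNv, smul_zero]
      have hw1u0 : w1 ⬝ᵥ u0 = 0 := by
        rw [hNz] at hNu0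
        rcases smul_eq_zero.mp hNu0 with h | h
        · exact h
        · exact absurd h hu0
      have hw1u0' : w1 0 * u0 0 + w1 1 * u0 1 = 0 := by
        simpa [dotProduct, Fin.sum_univ_two] using hw1u0
      have hNN : N * N = 0 := by
        rw [hNeq]
        ext i j
        simp [Matrix.mul_apply, Matrix.vecMulVec_apply, Fin.sum_univ_two]
        linear_combination (u0 i * w1 j) * hw1u0'
      -- over `K`
      set Φ : Matrix (Fin 2) (Fin 2) k →+* Matrix (Fin 2) (Fin 2) K :=
        (algebraMap k K).mapMatrix with hΦ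
      set a : K := algebraMap k K (cv g1) with ha
      set D : Matrix (Fin 2) (Fin 2) K := Matrix.diagonal ![a, b g1] with hD
      have hΦN : Φ N = Φ (m g1) - a • 1 := by
        rw [hN, map_sub]
        congr 1
        ext i j
        fin_cases i <;> fin_cases j <;> simp [hΦ, ha]
      have hXT : Φ N * T = T * (D - a • 1) := by
        rw [hΦN, sub_mul, smul_mul_assoc, one_mul, hb g1, mul_sub, mul_smul_comm, mul_one]
      have hXX : Φ N * Φ N = 0 := by rw [← map_mul, hNN, map_zero]
      have hDD : (D - a • 1) * (D - a • 1) = 0 := by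
        apply mul_left_cancel_of_det_ne_zero hT
        rw [← Matrix.mul_assoc, ← hXT, Matrix.mul_assoc, ← hXT, ← Matrix.mul_assoc, hXX,
          Matrix.zero_mul, Matrix.mul_zero]
      have hba : b g1 = a := by
        have := congrFun (congrFun hDD 1) 1
        simp [hD, Matrix.mul_apply, Fin.sum_univ_two] at this
        exact sub_eq_zero.mp this
      have hD1 : D - a • 1 = 0 := by
        rw [hD, hba]
        ext i j
        fin_cases i <;> fin_cases j <;> simp
      have : Φ N = 0 := by
        apply mul_right_cancel_of_det_ne_zero hT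
        rw [hXT, hD1, Matrix.mul_zero, Matrix.zero_mul]
      apply hN0
      apply hΦinj
      rw [this, map_zero]
    · -- common eigenvector
      intro g
      obtain ⟨j, hj⟩ : ∃ j, w1 j ≠ 0 := by
        by_contra hcon
        push Not at hcon
        exact hw1 (funext hcon)
      have h1 : N.mulVec (Pi.single j 1) = w1 j • u0 := by
        rw [hNz]; simp
      have h2 : (m g).mulVec (N.mulVec (Pi.single j 1)) =
          (w1 ⬝ᵥ (m g).mulVec (Pi.single j 1)) • u0 := by
        rw [Matrix.mulVec_mulVec, hNcomm g, ← Matrix.mulVec_mulVec, hNz]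
      rw [h1, Matrix.mulVec_smul] at h2
      refine ⟨(w1 j)⁻¹ * (w1 ⬝ᵥ (m g).mulVec (Pi.single j 1)), ?_⟩
      rw [mul_smul, ← h2, smul_smul, inv_mul_cancel₀ hj, one_smul]

omit [Finite k] in
theorem trace_eq_of_conj {X Y P : Matrix (Fin 2) (Fin 2) K} (hP : P.det ≠ 0)
    (h : X * P = P * Y) : X.trace = Y.trace := by
  have hu : IsUnit P.det := isUnit_iff_ne_zero.mpr hP
  have hX : X = P * Y * P⁻¹ := by
    rw [← h, Matrix.mul_assoc, Matrix.mul_nonsing_inv P hu, Matrix.mul_one]
  rw [hX, Matrix.trace_mul_comm, ← Matrix.mul_assoc, Matrix.nonsing_inv_mul P hu, Matrix.one_mul]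

omit [Finite k] in
theorem det_eq_of_conj {X Y P : Matrix (Fin 2) (Fin 2) K} (hP : P.det ≠ 0)
    (h : X * P = P * Y) : X.det = Y.det := by
  have := congrArg Matrix.det h
  rw [Matrix.det_mul, Matrix.det_mul, mul_comm] at this
  exact mul_left_cancel₀ hP this

/-- **Realisability over the finite field `k`.**  A weakly semisimple two-dimensional
representation over a field `K ⊇ k` all of whose traces and determinants lie in `k` is
conjugate over `K` to a (weakly semisimple) representation over `k`. -/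
theorem exists_realisation (r : G →* GL (Fin 2) K) (hss : WeakSS r)
    (htr : ∀ g, ∃ a : k, algebraMap k K a = Matrix.trace (r g : Matrix (Fin 2) (Fin 2) K))
    (hdet : ∀ g, ∃ a : k, algebraMap k K a = Matrix.det (r g : Matrix (Fin 2) (Fin 2) K)) :
    ∃ r' : G →* GL (Fin 2) k,
      (∀ g, algebraMap k K (Matrix.trace (r' g : Matrix (Fin 2) (Fin 2) k)) =
        Matrix.trace (r g : Matrix (Fin 2) (Fin 2) K)) ∧
      (∀ g, algebraMap k K (Matrix.det (r' g : Matrix (Fin 2) (Fin 2) k)) =
        Matrix.det (r g : Matrix (Fin 2) (Fin 2) K)) ∧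
      (∀ g, r' g = 1 ↔ r g = 1) ∧ WeakSS r' ∧
      ∃ P : Matrix (Fin 2) (Fin 2) K, P.det ≠ 0 ∧ ∀ g,
        (r g : Matrix (Fin 2) (Fin 2) K) * P =
          P * (r' g : Matrix (Fin 2) (Fin 2) k).map (algebraMap k K) := by
  obtain ⟨P, hPdet, hP⟩ := exists_isForm (k := k) r hss htr hdet
  choose m hm using hP
  have hΦinj := mapMatrix_injective (k := k) (K := K)
  have m_one : m 1 = 1 := by
    apply hΦinj
    apply mul_left_cancel_of_det_ne_zero hPdet
    rw [← hm 1, rho_one, Matrix.one_mul, map_one, Matrix.mul_one]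
  have m_mul : ∀ g h, m (g * h) = m g * m h := by
    intro g h
    apply hΦinj
    apply mul_left_cancel_of_det_ne_zero hPdet
    rw [← hm (g * h), rho_mul, Matrix.mul_assoc, hm h, ← Matrix.mul_assoc, hm g,
      Matrix.mul_assoc, ← map_mul]
  let f : G →* Matrix (Fin 2) (Fin 2) k :=
    { toFun := m, map_one' := m_one, map_mul' := m_mul }
  have hf : ∀ g, ((f.toHomUnits g : GL (Fin 2) k) : Matrix (Fin 2) (Fin 2) k) = m g :=
    fun g => rfl
  refine ⟨f.toHomUnits, ?_, ?_, ?_, ?_, P, hPdet, ?_⟩
  · intro g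
    rw [hf, AddMonoidHom.map_trace]
    exact (trace_eq_of_conj hPdet (hm g)).symm
  · intro g
    rw [hf, RingHom.map_det]
    exact (det_eq_of_conj hPdet (hm g)).symm
  · intro g
    constructor
    · intro h
      have h1 : m g = 1 := by rw [← hf g, h]; rfl
      have h2 : rho r g = 1 := by
        apply mul_right_cancel_of_det_ne_zero hPdet
        rw [hm g, h1, map_one, Matrix.mul_one, Matrix.one_mul]
      exact Units.ext h2
    · intro h
      have h2 : rho r g = 1 := by rw [rho, h]; rfl
      have h1 : m g = 1 := by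
        apply hΦinj
        apply mul_left_cancel_of_det_ne_zero hPdet
        rw [← hm g, h2, Matrix.one_mul, map_one, Matrix.mul_one]
      exact Units.ext ((hf g).trans h1)
  · -- weak semisimplicity descends
    intro v hv hev
    choose cv hcv using hev
    have hcv' : ∀ g, (m g).mulVec v = cv g • v := hcv
    set vK : Fin 2 → K := fun i => algebraMap k K (v i) with hvK
    have hvK0 : vK ≠ 0 := by
      intro h
      apply hv
      ext i
      have := congrFun h i
      simp only [hvK, Pi.zero_apply] at this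
      exact (map_eq_zero _).mp this
    set V := P.mulVec vK with hV
    have hV0 : V ≠ 0 := fun h => hvK0 (Matrix.eq_zero_of_mulVec_eq_zero hPdet h)
    have hVev : ∀ g, (rho r g).mulVec V = algebraMap k K (cv g) • V := by
      intro g
      rw [hV, Matrix.mulVec_mulVec, hm g, ← Matrix.mulVec_mulVec, ← Matrix.mulVec_smul]
      congr 1
      ext i
      have := RingHom.map_mulVec (algebraMap k K) (m g) v i
      rw [hcv' g] at this
      simp only [RingHom.mapMatrix_apply, hvK]
      refine this.symm.trans ?_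
      simp
    obtain ⟨W, hW, hWe⟩ := hss V hV0 (fun g => ⟨_, hVev g⟩)
    choose bW hbW using hWe
    have hbW' : ∀ g, (rho r g).mulVec W = bW g • W := hbW
    have hQdet : (colMat V W).det ≠ 0 := by
      rw [det_colMat]; exact indep_det_ne_zero hV0 hW
    have hu : IsUnit P.det := isUnit_iff_ne_zero.mpr hPdet
    set T := P⁻¹ * colMat V W with hT
    have hPT : P * T = colMat V W := by
      rw [hT, ← Matrix.mul_assoc, Matrix.mul_nonsing_inv P hu, Matrix.one_mul]
    have hTdet : T.det ≠ 0 := by
      intro h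
      apply hQdet
      rw [← hPT, Matrix.det_mul, h, mul_zero]
    have key : ∀ g, rho r g * colMat V W =
        colMat V W * Matrix.diagonal ![algebraMap k K (cv g), bW g] := by
      intro g
      rw [mul_colMat, colMat_mul, hVev g, hbW' g]
      congr 1 <;> simp
    have hb : ∀ g, (algebraMap k K).mapMatrix (m g) * T =
        T * Matrix.diagonal ![algebraMap k K (cv g), bW g] := by
      intro g
      apply mul_left_cancel_of_det_ne_zero hPdet
      rw [← Matrix.mul_assoc, ← hm g, Matrix.mul_assoc, hPT, key g, ← Matrix.mul_assoc, hPT]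
    obtain ⟨w0, hw0, hw0e⟩ := descent_aux m hv cv hcv' hTdet bW hb
    exact ⟨w0, hw0, hw0e⟩
  · intro g
    exact hm g

/-- The specialisation `k = ZMod l`. -/
theorem exists_realisation_zmod (l : ℕ) [Fact l.Prime] {K : Type*} [Field K]
    [Algebra (ZMod l) K] {G : Type*} [Group G] (r : G →* GL (Fin 2) K) (hss : WeakSS r)
    (htr : ∀ g, ∃ a : ZMod l,
      algebraMap (ZMod l) K a = Matrix.trace (r g : Matrix (Fin 2) (Fin 2) K))
    (hdet : ∀ g, ∃ a : ZMod l,
      algebraMap (ZMod l) K a = Matrix.det (r g : Matrix (Fin 2) (Fin 2) K)) :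
    ∃ r' : G →* GL (Fin 2) (ZMod l),
      (∀ g, algebraMap (ZMod l) K (Matrix.trace (r' g : Matrix (Fin 2) (Fin 2) (ZMod l))) =
        Matrix.trace (r g : Matrix (Fin 2) (Fin 2) K)) ∧
      (∀ g, algebraMap (ZMod l) K (Matrix.det (r' g : Matrix (Fin 2) (Fin 2) (ZMod l))) =
        Matrix.det (r g : Matrix (Fin 2) (Fin 2) K)) ∧
      (∀ g, r' g = 1 ↔ r g = 1) ∧ WeakSS r' ∧
      ∃ P : Matrix (Fin 2) (Fin 2) K, P.det ≠ 0 ∧ ∀ g,
        (r g : Matrix (Fin 2) (Fin 2) K) * P =
          P * (r' g : Matrix (Fin 2) (Fin 2) (ZMod l)).map (algebraMap (ZMod l) K) :=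
  exists_realisation (k := ZMod l) r hss htr hdet

/-- The specialisation `k = ZMod l` for a field `K` of characteristic `l`, with the canonical
map `ZMod.castHom`. -/
theorem exists_realisation_zmod_charP (l : ℕ) [Fact l.Prime] {K : Type*} [Field K] [CharP K l]
    {G : Type*} [Group G] (r : G →* GL (Fin 2) K) (hss : WeakSS r)
    (htr : ∀ g, ∃ a : ZMod l,
      ZMod.castHom (dvd_refl l) K a = Matrix.trace (r g : Matrix (Fin 2) (Fin 2) K))
    (hdet : ∀ g, ∃ a : ZMod l,
      ZMod.castHom (dvd_refl l) K a = Matrix.det (r g : Matrix (Fin 2) (Fin 2) K)) :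
    ∃ r' : G →* GL (Fin 2) (ZMod l),
      (∀ g, ZMod.castHom (dvd_refl l) K
          (Matrix.trace (r' g : Matrix (Fin 2) (Fin 2) (ZMod l))) =
        Matrix.trace (r g : Matrix (Fin 2) (Fin 2) K)) ∧
      (∀ g, ZMod.castHom (dvd_refl l) K
          (Matrix.det (r' g : Matrix (Fin 2) (Fin 2) (ZMod l))) =
        Matrix.det (r g : Matrix (Fin 2) (Fin 2) K)) ∧
      (∀ g, r' g = 1 ↔ r g = 1) ∧ WeakSS r' ∧
      ∃ P : Matrix (Fin 2) (Fin 2) K, P.det ≠ 0 ∧ ∀ g,
        (r g : Matrix (Fin 2) (Fin 2) K) * P =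
          P * (r' g : Matrix (Fin 2) (Fin 2) (ZMod l)).map (ZMod.castHom (dvd_refl l) K) := by
  let _ : Algebra (ZMod l) K := (ZMod.castHom (dvd_refl l) K).toAlgebra
  exact exists_realisation (k := ZMod l) r hss htr hdet

end Main

end Fermat.Agent.S48x.Lift.Realise



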